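import Fermat.Agent.SS.OldAlg
import Fermat.Agent.S22
import Fermat.Agent.S23
import Fermat.Agent.S49.Main
import Fermat.Prelude.Def_CuspForm_Newforms
import Fermat.Prelude.Def_CuspForm_HeckeEvalForms

/-!
# SS, leaf [OLD]

If the system of good eigenvalues `(a_ℓ(g))_{ℓ ∤ N}` does not occur at level `M ∣ N`, then there is
an integral polynomial in the `T_ℓ`, `ℓ ∤ N`, killing `S₂(Γ₀(M))` and not killed by the eigensystem
of `g`.
-/

set_option autoImplicit false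

namespace Fermat.Agent.SS

open CongruenceSubgroup ModularFormClass CuspForm Fermat.Agent.S49

/-- A simultaneous eigenvector of the full Hecke algebra can be normalised. -/
theorem exists_normalizedEigenform_of_eigenvector {N : ℕ} [NeZero N] (v : CuspForm (Gamma0 N) 2)
    (hv : v ≠ 0) (μ : CuspForm.heckeAlgebra N 2 ∅ → ℂ)
    (hveig : ∀ t : CuspForm.heckeAlgebra N 2 ∅,
      (t : Module.End ℂ (CuspForm (Gamma0 N) 2)) v = μ t • v) :
    ∃ f : CuspForm (Gamma0 N) 2, f.IsNormalizedEigenform ∧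
      ∀ (ℓ : ℕ) (hℓ : ℓ.Prime) (hℓN : ¬ ℓ ∣ N),
        qCoeff f ℓ = μ (CuspForm.heckeAlgebra.T hℓ hℓN (Set.notMem_empty _)) := by
  let e : ℕ → ℂ := fun ℓ => if ℓ ∣ N then 0 else (ℓ : ℂ)
  have hT : ∀ (ℓ : ℕ) (hℓ : ℓ.Prime) (hℓN : ¬ ℓ ∣ N) (n : ℕ),
      qCoeff v (ℓ * n) + e ℓ * (if ℓ ∣ n then qCoeff v (n / ℓ) else 0) =
        μ (CuspForm.heckeAlgebra.T hℓ hℓN (Set.notMem_empty _)) * qCoeff v n := by
    intro ℓ hℓ hℓN n
    have h1 := congrArg (fun g : CuspForm (Gamma0 N) 2 => qCoeff g n)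
      (hveig (CuspForm.heckeAlgebra.T hℓ hℓN (Set.notMem_empty _)))
    rw [qCoeff_smul] at h1
    change qCoeff (CuspForm.heckeTLin 2 hℓ hℓN v) n = _ at h1
    rw [qCoeff_heckeTLin] at h1
    have hz : ((ℓ : ℂ) ^ ((2 : ℤ) - 1)) = ℓ := by norm_num
    rw [hz] at h1
    rw [← h1, mul_comm ℓ n]
    simp only [e, if_neg hℓN]
    split_ifs <;> simp
  have hU : ∀ (ℓ : ℕ) (hℓ : ℓ.Prime) (hℓN : ℓ ∣ N) (n : ℕ),
      qCoeff v (ℓ * n) + e ℓ * (if ℓ ∣ n then qCoeff v (n / ℓ) else 0) =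
        μ (CuspForm.heckeAlgebra.U hℓ hℓN (Set.notMem_empty _)) * qCoeff v n := by
    intro ℓ hℓ hℓN n
    have h1 := congrArg (fun g : CuspForm (Gamma0 N) 2 => qCoeff g n)
      (hveig (CuspForm.heckeAlgebra.U hℓ hℓN (Set.notMem_empty _)))
    rw [qCoeff_smul] at h1
    change qCoeff (CuspForm.heckeULin 2 hℓN v) n = _ at h1
    rw [qCoeff_heckeULin hℓ.ne_zero] at h1
    rw [← h1, mul_comm ℓ n]
    simp only [e, if_pos hℓN]
    simp
  have hrec : ∀ ℓ : ℕ, ℓ.Prime → ∃ lam : ℂ, ∀ n : ℕ,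
      qCoeff v (ℓ * n) + e ℓ * (if ℓ ∣ n then qCoeff v (n / ℓ) else 0) = lam * qCoeff v n := by
    intro ℓ hℓ
    by_cases hℓN : ℓ ∣ N
    · exact ⟨_, hU ℓ hℓ hℓN⟩
    · exact ⟨_, hT ℓ hℓ hℓN⟩
  have hc1 : qCoeff v 1 ≠ 0 := by
    intro h1
    exact hv (eq_zero_of_qCoeff v (coeff_eq_zero_of_one hrec (qCoeff_zero_index v) h1))
  have hb : ∀ n, qCoeff (⇑((qCoeff v 1)⁻¹ • v)) n = (qCoeff v 1)⁻¹ * qCoeff v n :=
    fun n => qCoeff_smul _ _ _
  have hb1 : qCoeff (⇑((qCoeff v 1)⁻¹ • v)) 1 = 1 := by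
    rw [hb, inv_mul_cancel₀ hc1]
  have hlamEq : ∀ (ℓ : ℕ) (hℓ : ℓ.Prime) (lam : ℂ), (∀ n : ℕ,
      qCoeff v (ℓ * n) + e ℓ * (if ℓ ∣ n then qCoeff v (n / ℓ) else 0) = lam * qCoeff v n) →
      qCoeff (⇑((qCoeff v 1)⁻¹ • v)) ℓ = lam := by
    intro ℓ hℓ lam hlam
    have h1 := hlam 1
    rw [if_neg (fun hd => hℓ.one_lt.ne' (Nat.dvd_one.mp hd)), mul_zero, add_zero, mul_one] at h1
    rw [hb, h1]
    field_simp
  have hEig : FormalHecke.IsEigensystem e (fun n => qCoeff (⇑((qCoeff v 1)⁻¹ • v)) n) := by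
    refine ⟨hb1, ?_⟩
    intro ℓ hℓ n
    obtain ⟨lam, hlam⟩ := hrec ℓ hℓ
    simp only
    rw [hlamEq ℓ hℓ lam hlam]
    have hn := hlam n
    simp only [hb]
    split_ifs at hn ⊢ with hd
    · linear_combination (qCoeff v 1)⁻¹ * hn
    · linear_combination (qCoeff v 1)⁻¹ * hn
  obtain ⟨-, hmul, hpow⟩ := isRecursive_of_isEigensystem hEig
  refine ⟨(qCoeff v 1)⁻¹ • v, ⟨hb1, hmul, ?_, ?_⟩, ?_⟩
  · intro p r hp hpN
    have := hpow p r hp
    simpa only [e, if_neg hpN] using this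
  · intro p r hp hpN
    have := hpow p r hp
    simpa only [e, if_pos hpN, zero_mul, sub_zero] using this
  · intro ℓ hℓ hℓN
    exact hlamEq ℓ hℓ _ (hT ℓ hℓ hℓN)

/-- the primes not dividing `N` -/
abbrev GoodP (N : ℕ) : Type := {ℓ : Nat.Primes // ¬ (ℓ : ℕ) ∣ N}

/-- `T_ℓ` at level `M ∣ N` for `ℓ ∤ N` -/
noncomputable def goodT {N : ℕ} (M : ℕ) [NeZero M] (hMN : M ∣ N) (ℓ : GoodP N) : CuspForm.heckeAlgebra M 2 ∅ :=
  CuspForm.heckeAlgebra.T ℓ.1.2 (fun h => ℓ.2 (h.trans hMN)) (Set.notMem_empty _)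

/-- the `n`-th coefficient as a linear form -/
noncomputable def coeffL (M : ℕ) (n : ℕ) : CuspForm (Gamma0 M) 2 →ₗ[ℂ] ℂ where
  toFun f := qCoeff f n
  map_add' f g := qCoeff_add f g n
  map_smul' c f := qCoeff_smul c f n

/-- A system of eigenvalues for the `T_ℓ`, `ℓ ∤ N`, which is a character of the subring of the Hecke
algebra of level `M` generated by these operators, is the system of eigenvalues of a normalised
eigenform of level `M`. -/
theorem exists_eigenform_of_ker_le {N : ℕ} (M : ℕ) [NeZero M] (hMN : M ∣ N) (a : GoodP N → ℂ)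
    (hker : ∀ t : MvPolynomial (GoodP N) ℤ, MvPolynomial.aeval (goodT M hMN) t = 0 →
      MvPolynomial.aeval a t = 0) :
    ∃ f : CuspForm (Gamma0 M) 2, f.IsNormalizedEigenform ∧ ∀ ℓ : GoodP N, qCoeff f ℓ.1 = a ℓ := by
  classical
  have hfinT : Module.Finite ℤ (CuspForm.heckeAlgebra M 2 ∅) := Fermat.Agent.S22.result M 2 ∅
  have hfinV : FiniteDimensional ℂ (CuspForm (Gamma0 M) 2) :=
    Fermat.Agent.S23.finiteDimensional_cuspForm M 2
  let ε : MvPolynomial (GoodP N) ℤ →+* CuspForm.heckeAlgebra M 2 ∅ :=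
    (MvPolynomial.aeval (goodT M hMN) :
      MvPolynomial (GoodP N) ℤ →ₐ[ℤ] CuspForm.heckeAlgebra M 2 ∅).toRingHom
  let X : MvPolynomial (GoodP N) ℤ →+* ℂ :=
    (MvPolynomial.aeval a : MvPolynomial (GoodP N) ℤ →ₐ[ℤ] ℂ).toRingHom
  let R := MvPolynomial (GoodP N) ℤ ⧸ RingHom.ker ε
  let κ : R →+* CuspForm.heckeAlgebra M 2 ∅ := RingHom.kerLift ε
  have hκ : Function.Injective κ := RingHom.kerLift_injective ε
  let φ : R →+* Module.End ℂ (CuspForm (Gamma0 M) 2) :=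
    (CuspForm.heckeAlgebra M 2 ∅).val.toRingHom.comp κ
  have hφ : Function.Injective φ := Subtype.val_injective.comp hκ
  have hfinR : Module.Finite ℤ R := Module.Finite.of_injective κ.toIntAlgHom.toLinearMap hκ
  have htf : Module.IsTorsionFree ℤ R :=
    Function.Injective.moduleIsTorsionFree κ hκ (fun n x => map_zsmul κ n x)
  let χ : R →+* ℂ := Ideal.Quotient.lift (RingHom.ker ε) X (fun t ht => hker t ht)
  obtain ⟨w₀, hw₀, hw₀eig⟩ := exists_eigenvector_of_ringHom φ hφ (coeffL M)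
    (fun j : CuspForm.intLattice M 2 => (j : CuspForm (Gamma0 M) 2))
    (fun v hv => eq_zero_of_qCoeff v hv)
    (by
      have h := Fermat.Agent.S23.result M
      unfold CuspForm.HasIntegralStructure at h
      convert h using 2
      exact Subtype.range_coe)
    (fun t i j => (mem_intLattice_iff _).1
      (CuspForm.mem_intLattice_of_mem_heckeAlgebra (by norm_num) (κ t).2 j.2) i) χ
  -- `w₀` is an eigenvector of the good operators
  have hgood₀ : ∀ ℓ : GoodP N,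
      (goodT M hMN ℓ : Module.End ℂ (CuspForm (Gamma0 M) 2)) w₀ = a ℓ • w₀ := by
    intro ℓ
    have h1 := hw₀eig (Ideal.Quotient.mk _ (MvPolynomial.X ℓ))
    have h2 : φ (Ideal.Quotient.mk _ (MvPolynomial.X ℓ))
        = (goodT M hMN ℓ : Module.End ℂ (CuspForm (Gamma0 M) 2)) := by
      have h4 : ε (MvPolynomial.X ℓ) = goodT M hMN ℓ := MvPolynomial.aeval_X _ ℓ
      exact congrArg Subtype.val h4
    have h3 : χ (Ideal.Quotient.mk _ (MvPolynomial.X ℓ)) = a ℓ := by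
      exact MvPolynomial.aeval_X _ ℓ
    rwa [h2, h3] at h1
  -- the eigenspace
  let W : Submodule ℂ (CuspForm (Gamma0 M) 2) :=
    { carrier := {v | ∀ ℓ : GoodP N,
        (goodT M hMN ℓ : Module.End ℂ (CuspForm (Gamma0 M) 2)) v = a ℓ • v}
      zero_mem' := fun ℓ => by simp
      add_mem' := fun {x y} hx hy ℓ => by rw [map_add, hx ℓ, hy ℓ, smul_add]
      smul_mem' := fun c x hx ℓ => by rw [map_smul, hx ℓ, smul_comm] }
  have hstab : ∀ (s : CuspForm.heckeAlgebra M 2 ∅), ∀ v ∈ W,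
      (s : Module.End ℂ (CuspForm (Gamma0 M) 2)) v ∈ W := by
    intro s v hv ℓ
    have hc : (goodT M hMN ℓ : Module.End ℂ (CuspForm (Gamma0 M) 2)) * s
        = s * (goodT M hMN ℓ : Module.End ℂ (CuspForm (Gamma0 M) 2)) :=
      congrArg Subtype.val (mul_comm (goodT M hMN ℓ) s)
    have h1 := LinearMap.congr_fun hc v
    rw [Module.End.mul_apply, Module.End.mul_apply, hv ℓ, map_smul] at h1
    exact h1
  let φW : CuspForm.heckeAlgebra M 2 ∅ →+* Module.End ℂ W :=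
    { toFun := fun s => (s : Module.End ℂ (CuspForm (Gamma0 M) 2)).restrict (hstab s)
      map_one' := by ext; rfl
      map_mul' := fun s s' => by ext; rfl
      map_zero' := by ext; rfl
      map_add' := fun s s' => by ext; rfl }
  obtain ⟨w, μ, hw, hweig, -⟩ := exists_common_eigenvector φW (⟨w₀, hgood₀⟩ : W)
    (fun h => hw₀ (congrArg Subtype.val h))
  have hw' : (w : CuspForm (Gamma0 M) 2) ≠ 0 := fun h => hw (Subtype.ext h)
  have hweig' : ∀ t : CuspForm.heckeAlgebra M 2 ∅,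
      (t : Module.End ℂ (CuspForm (Gamma0 M) 2)) (w : CuspForm (Gamma0 M) 2)
        = μ t • (w : CuspForm (Gamma0 M) 2) := fun t => congrArg Subtype.val (hweig t)
  obtain ⟨f, hf, hfT⟩ := exists_normalizedEigenform_of_eigenvector (w : CuspForm (Gamma0 M) 2) hw' μ
    hweig'
  refine ⟨f, hf, fun ℓ => ?_⟩
  rw [hfT ℓ.1 ℓ.1.2 (fun h => ℓ.2 (h.trans hMN))]
  have h1 := hweig' (goodT M hMN ℓ)
  rw [w.2 ℓ] at h1
  exact (smul_left_injective ℂ hw' h1).symm

/-- **[OLD]**. -/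
theorem exists_oldKiller {N : ℕ} (g : CuspForm (Gamma0 N) 2) (M : ℕ) [NeZero M] (hMN : M ∣ N)
    (hnot : ¬ g.GoodEigensystemOccursAt M) :
    ∃ t : MvPolynomial (GoodP N) ℤ, MvPolynomial.aeval (goodT M hMN) t = 0 ∧
      MvPolynomial.aeval (fun ℓ : GoodP N => qCoeff g ℓ.1) t ≠ 0 := by
  by_contra hcon
  push Not at hcon
  obtain ⟨f, hf, hfa⟩ := exists_eigenform_of_ker_le M hMN (fun ℓ : GoodP N => qCoeff g ℓ.1) hcon
  exact hnot ⟨f, hf, fun ℓ hℓ hℓN => hfa ⟨⟨ℓ, hℓ⟩, hℓN⟩⟩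

/-- **[OLD]** in the language of the Prelude `HeckeAlg`. -/
theorem exists_oldKiller_heckeAlg {N : ℕ} (g : CuspForm (Gamma0 N) 2) (M : ℕ) [NeZero M]
    (hMN : M ∣ N) (hnot : ¬ g.GoodEigensystemOccursAt M) :
    ∃ t : MvPolynomial (GoodP N) ℤ,
      CuspForm.heckeEvalForms M 2 (MvPolynomial.rename Subtype.val t) = 0 ∧
      MvPolynomial.aeval (fun ℓ : Nat.Primes => qCoeff g ℓ) (MvPolynomial.rename Subtype.val t)
        ≠ 0 := by
  obtain ⟨t, ht0, ht⟩ := exists_oldKiller g M hMN hnot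
  refine ⟨t, ?_, ?_⟩
  · rw [← ht0]
    show MvPolynomial.aeval (CuspForm.heckeFormsGen M 2) (MvPolynomial.rename Subtype.val t) = _
    rw [MvPolynomial.aeval_rename]
    congr 2
    funext ℓ
    exact CuspForm.heckeFormsGen_of_not_dvd (fun h => ℓ.2 (h.trans hMN))
  · rw [MvPolynomial.aeval_rename]
    exact ht

end Fermat.Agent.SS
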