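import Fermat.Agent.GAL.PC.S34Wire
import Fermat.Agent.RED.S37.GalEq
import Fermat.Agent.RED.S37.Exist
import Fermat.Agent.RED.S37.PicDesc

/-!
# Project SS : [DESC-SS]  descent of Galois identities from the rigid level `N * c`, `c = 4, 9`

`B^* : J₀(N) → J₀(N c)` is Galois equivariant and injective on torsion.  Hence every additive
identity between Galois translates of a torsion class can be checked at the level `N c`.
-/

set_option autoImplicit false

noncomputable section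

open AlgebraicCurve ModularCurve

namespace Fermat.Agent.SS

open Fermat.Agent.RED

/-- `B^*` is injective on torsion classes: a torsion class which dies at level `N c` is zero. -/
theorem eq_zero_of_Bstar_eq_zero (N c : ℕ) [NeZero N] [NeZero c] (hc : c = 4 ∨ c = 9)
    {p : ℕ} (hp : p ≠ 0) (x : JZero N) (hx : ∃ n : ℕ, p ^ n • x = 0)
    (h : Bstar N c (heckeInputsAlong' N c) x = 0) : x = 0 := by
  obtain ⟨n, hn⟩ := hx
  exact Bstar_eq_zero_of_torsion N c hc _ x (p ^ n) (pow_ne_zero n hp) hn h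

/-- the image of a `p`-power torsion class is `p`-power torsion. -/
theorem Bstar_torsion (N c : ℕ) [NeZero N] [NeZero c] {p : ℕ} (x : JZero N)
    (hx : ∃ n : ℕ, p ^ n • x = 0) :
    ∃ n : ℕ, p ^ n • Bstar N c (heckeInputsAlong' N c) x = 0 := by
  obtain ⟨n, hn⟩ := hx
  exact ⟨n, by rw [← map_nsmul, hn, map_zero]⟩

/-- Galois translates of `p`-power torsion classes are `p`-power torsion. -/
theorem smul_torsion (N : ℕ) [NeZero N] {p : ℕ} (σ : GQ) (x : JZero N)
    (hx : ∃ n : ℕ, p ^ n • x = 0) : ∃ n : ℕ, p ^ n • (σ • x) = 0 := by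
  obtain ⟨n, hn⟩ := hx
  exact ⟨n, by rw [smul_comm (p ^ n) σ x, hn, smul_zero]⟩

/-- **[DESC-SS]** unipotency of a single `τ` descends from the level `N c`. -/
theorem actsUnip_of_mul (N c : ℕ) [NeZero N] [NeZero c] (hc : c = 4 ∨ c = 9)
    {p : ℕ} (hp : p ≠ 0) (τ : GQ) (h : GAL.PC.ActsUnip p (JZero (N * c)) τ) :
    GAL.PC.ActsUnip p (JZero N) τ := by
  intro x hx
  obtain ⟨n, hn⟩ := hx
  refine eq_zero_of_Bstar_eq_zero N c hc hp _ ⟨n, ?_⟩ ?_
  · have h1 : p ^ n • (τ • x) = 0 := by rw [smul_comm (p ^ n) τ x, hn, smul_zero]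
    have h2 : p ^ n • (τ • τ • x) = 0 := by rw [smul_comm (p ^ n) τ (τ • x), h1, smul_zero]
    rw [nsmul_add, nsmul_sub, hn, h2, nsmul_left_comm, h1]
    simp
  · rw [map_add, map_sub, map_nsmul, Bstar_smul, Bstar_smul]
    exact h _ (Bstar_torsion N c x ⟨n, hn⟩)

/-- **[DESC-SS]** `UNIP` descends from the level `N c`, `c = 4, 9`. -/
theorem unip_of_mul (N c : ℕ) [NeZero N] [NeZero c] (hc : c = 4 ∨ c = 9)
    {p : ℕ} (hp : p ≠ 0) (q : ℕ) (h : GAL.PC.UNIP (N * c) p q) : GAL.PC.UNIP N p q :=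
  fun A hA τ hτ => actsUnip_of_mul N c hc hp τ (h A hA τ hτ)

/-- **[DESC-SS]** `UNIP` descends from the rigid level `N * aux q`. -/
theorem unip_of_aux (N : ℕ) [NeZero N] {p : ℕ} (hp : p ≠ 0) (q : ℕ)
    (h : GAL.PC.UNIP (N * aux q) p q) : GAL.PC.UNIP N p q :=
  unip_of_mul N (aux q) (aux_eq q) hp q h

end Fermat.Agent.SS
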