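import Mathlib
import Fermat.Prelude.Def_FLTPrelim_Ramification

/-!
# SS, leaves [ARCH] and [VALINV]

`A` a valuation subring of `Kb = AlgebraicClosure ℚ` lying over the prime `q`.
* `arch_of_liesOverPrime` : the valuation has rank one;
* `valinv` : the decomposition group preserves the valuation.
-/

set_option autoImplicit false
set_option linter.unusedSectionVars false

open scoped Pointwise

namespace Fermat.Agent.SS

section valinv

variable {L : Type*} [Field L] [Algebra ℚ L] (A : ValuationSubring L)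

theorem map_mem_of_mem_decomposition {σ : L ≃ₐ[ℚ] L} (hσ : σ ∈ A.decompositionSubgroup ℚ) {x : L}
    (hx : x ∈ A) : σ x ∈ A := by
  have h1 : σ • A = A := hσ
  have h2 := ValuationSubring.smul_mem_pointwise_smul σ x A hx
  rw [h1] at h2
  exact h2

theorem map_mem_iff_of_mem_decomposition {σ : L ≃ₐ[ℚ] L} (hσ : σ ∈ A.decompositionSubgroup ℚ)
    {x : L} : σ x ∈ A ↔ x ∈ A := by
  refine ⟨fun h => ?_, map_mem_of_mem_decomposition A hσ⟩
  have := map_mem_of_mem_decomposition A (inv_mem hσ) h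
  simpa using this

theorem exists_pow_apply_eq [Algebra.IsAlgebraic ℚ L] (σ : L ≃ₐ[ℚ] L) (c : L) :
    ∃ n : ℕ, 0 < n ∧ (σ ^ n) c = c := by
  classical
  have halg : IsAlgebraic ℚ c := Algebra.IsAlgebraic.isAlgebraic c
  have hint : IsIntegral ℚ c := halg.isIntegral
  have hfin : ((minpoly ℚ c).rootSet L).Finite := Polynomial.rootSet_finite _ _
  have hmem : ∀ i : ℕ, (σ ^ i) c ∈ (minpoly ℚ c).rootSet L := by
    intro i
    rw [Polynomial.mem_rootSet]
    refine ⟨minpoly.ne_zero hint, ?_⟩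
    have := minpoly.aeval ℚ ((σ ^ i) c)
    rwa [minpoly.algEquiv_eq] at this
  have : Finite ((minpoly ℚ c).rootSet L) := hfin
  obtain ⟨i, j, hij, h⟩ := Finite.exists_ne_map_eq_of_infinite
    (fun i : ℕ => (⟨(σ ^ i) c, hmem i⟩ : (minpoly ℚ c).rootSet L))
  have h' : (σ ^ i) c = (σ ^ j) c := congrArg Subtype.val h
  wlog hlt : i < j generalizing i j
  · exact this j i hij.symm h.symm h'.symm (lt_of_le_of_ne (not_lt.1 hlt) hij.symm)
  refine ⟨j - i, Nat.sub_pos_of_lt hlt, ?_⟩
  have e : σ ^ j = σ ^ i * σ ^ (j - i) := by rw [← pow_add]; congr 1; omega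
  rw [e, AlgEquiv.mul_apply] at h'
  exact ((σ ^ i).injective h').symm

theorem mul_notMem_of_notMem {x y : L} (hx : x ∉ A) (hy : y ∉ A) : x * y ∉ A := by
  intro h
  have hx0 : x ≠ 0 := by rintro rfl; exact hx A.zero_mem
  have hxi : x⁻¹ ∈ A := (A.mem_or_inv_mem x).resolve_left hx
  apply hy
  have := A.mul_mem _ _ hxi h
  rwa [← mul_assoc, inv_mul_cancel₀ hx0, one_mul] at this

/-- [VALINV] the decomposition group preserves the valuation. -/
theorem valinv [Algebra.IsAlgebraic ℚ L] {σ : L ≃ₐ[ℚ] L} (hσ : σ ∈ A.decompositionSubgroup ℚ)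
    (c : L) (hc : c ≠ 0) : σ c * c⁻¹ ∈ A := by
  by_contra hcon
  obtain ⟨n, hn, hnc⟩ := exists_pow_apply_eq σ c
  have hprod : ∀ n : ℕ, ∏ i ∈ Finset.range n, (σ ^ i) (σ c * c⁻¹) = (σ ^ n) c * c⁻¹ := by
    intro n
    induction n with
    | zero => simp [hc]
    | succ n ih =>
      rw [Finset.prod_range_succ, ih, map_mul, map_inv₀, pow_succ, AlgEquiv.mul_apply]
      have h0 : (σ ^ n) c ≠ 0 := (map_ne_zero_iff _ (σ ^ n).injective).2 hc
      field_simp
  have hnot : ∀ n : ℕ, ∏ i ∈ Finset.range (n + 1), (σ ^ i) (σ c * c⁻¹) ∉ A := by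
    intro n
    induction n with
    | zero => simpa using hcon
    | succ n ih =>
      rw [Finset.prod_range_succ]
      refine mul_notMem_of_notMem A ih ?_
      rw [map_mem_iff_of_mem_decomposition A (pow_mem hσ _)]
      exact hcon
  obtain ⟨n', rfl⟩ : ∃ n', n = n' + 1 := ⟨n - 1, by omega⟩
  apply hnot n'
  rw [hprod, hnc, mul_inv_cancel₀ hc]
  exact A.one_mem

end valinv

section arch

variable {L : Type*} [Field L] [Algebra ℚ L] (A : ValuationSubring L) {q : ℕ}

theorem valuation_intCast_le_one (a : ℤ) : A.valuation (a : L) ≤ 1 := by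
  rw [ValuationSubring.valuation_le_one_iff]
  exact intCast_mem A a

theorem valuation_intCast_eq_one (hq : q.Prime) (hA : A.LiesOverPrime q) {a : ℤ}
    (ha : ¬ (q : ℤ) ∣ a) : A.valuation (a : L) = 1 := by
  have hq1 : A.valuation (q : L) < 1 := (ValuationSubring.mem_nonunits_iff A).1 hA
  have hcop : IsCoprime a (q : ℤ) := by
    have := (Int.prime_iff_natAbs_prime.2 (by simpa using hq) : Prime (q : ℤ))
    exact (this.coprime_iff_not_dvd.2 ha).symm
  obtain ⟨x, y, hxy⟩ := hcop
  refine le_antisymm (valuation_intCast_le_one A a) ?_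
  by_contra hlt
  rw [not_le] at hlt
  have h1 : A.valuation ((x : L) * a) < 1 := by
    rw [map_mul]
    exact lt_of_le_of_lt (mul_le_of_le_one_left' (valuation_intCast_le_one A x)) hlt
  have h2 : A.valuation ((y : L) * q) < 1 := by
    rw [map_mul]
    exact lt_of_le_of_lt (mul_le_of_le_one_left' (valuation_intCast_le_one A y)) hq1
  have h3 : A.valuation ((x : L) * a + (y : L) * q) < 1 := Valuation.map_add_lt _ h1 h2
  have h4 : ((x : L) * a + (y : L) * q) = 1 := by exact_mod_cast congrArg (Int.cast : ℤ → L) hxy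
  rw [h4, map_one] at h3
  exact lt_irrefl _ h3


theorem valuation_intCast_le_of_dvd {a : ℤ} (ha : (q : ℤ) ∣ a) :
    A.valuation (a : L) ≤ A.valuation (q : L) := by
  obtain ⟨b, rfl⟩ := ha
  push_cast
  rw [map_mul]
  exact mul_le_of_le_one_right' (valuation_intCast_le_one A b)

/-- an element of the maximal ideal has a power divisible by `q` -/
theorem exists_pow_le_valuation_q [Algebra.IsAlgebraic ℚ L] (hq : q.Prime)
    (hA : A.LiesOverPrime q) {π : L} (hπ0 : π ≠ 0) (hπ : A.valuation π < 1) :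
    ∃ n : ℕ, A.valuation (π ^ n) ≤ A.valuation (q : L) := by
  classical
  by_contra hcon
  push Not at hcon
  -- a primitive integral polynomial killing `π`
  have halg : IsAlgebraic ℤ π :=
    (IsFractionRing.isAlgebraic_iff ℤ ℚ L).2 (Algebra.IsAlgebraic.isAlgebraic π)
  obtain ⟨P₀, hP₀, hP₀π⟩ := halg
  set P := P₀.primPart with hPdef
  have hPprim : P.IsPrimitive := P₀.isPrimitive_primPart
  have hPπ : Polynomial.aeval π P = 0 := by
    have h1 := P₀.eq_C_content_mul_primPart
    rw [h1, map_mul, Polynomial.aeval_C] at hP₀π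
    have hc : (algebraMap ℤ L) P₀.content ≠ 0 := by
      have : CharZero L := algebraRat.charZero L
      simpa using (Polynomial.content_eq_zero_iff.not.2 hP₀)
    exact (mul_eq_zero.1 hP₀π).resolve_left hc
  have hex : ∃ i, ¬ (q : ℤ) ∣ P.coeff i := by
    by_contra hall
    push Not at hall
    have h1 : Polynomial.C (q : ℤ) ∣ P := (Polynomial.C_dvd_iff_dvd_coeff _ _).2 hall
    have h2 := hPprim _ h1
    have h3 : (q : ℤ) = 1 ∨ (q : ℤ) = -1 := Int.isUnit_iff.1 h2
    have := hq.two_le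
    omega
  let i := Nat.find hex
  have hi : ¬ (q : ℤ) ∣ P.coeff i := Nat.find_spec hex
  have hlt : ∀ j, j < i → (q : ℤ) ∣ P.coeff j := fun j hj => by
    have := Nat.find_min hex hj
    simpa using this
  have hvπ0 : A.valuation π ≠ 0 := (Valuation.ne_zero_iff _).2 hπ0
  rw [Polynomial.aeval_eq_sum_range] at hPπ
  have hci : P.coeff i ≠ 0 := by
    intro h0
    exact hi (h0 ▸ dvd_zero _)
  have himem : i ∈ Finset.range (P.natDegree + 1) :=
    Finset.mem_range.2 (Nat.lt_succ_of_le (Polynomial.le_natDegree_of_ne_zero hci))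
  rw [← Finset.add_sum_erase _ _ himem] at hPπ
  have hTi : A.valuation (P.coeff i • π ^ i) = A.valuation (π ^ i) := by
    rw [zsmul_eq_mul, map_mul, valuation_intCast_eq_one A hq hA hi, one_mul]
  have hne : A.valuation (π ^ i) ≠ 0 := (Valuation.ne_zero_iff _).2 (pow_ne_zero _ hπ0)
  have hlt' : A.valuation (∑ j ∈ (Finset.range (P.natDegree + 1)).erase i, P.coeff j • π ^ j)
      < A.valuation (π ^ i) := by
    refine Valuation.map_sum_lt _ hne fun j hj => ?_
    have hji : j ≠ i := (Finset.mem_erase.1 hj).1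
    rw [zsmul_eq_mul, map_mul]
    rcases lt_or_gt_of_ne hji with hj' | hj'
    · calc A.valuation ((P.coeff j : ℤ) : L) * A.valuation (π ^ j)
          ≤ A.valuation (q : L) * 1 := by
            refine mul_le_mul' (valuation_intCast_le_of_dvd A (hlt j hj')) ?_
            rw [map_pow]
            exact pow_le_one' hπ.le j
        _ = A.valuation (q : L) := mul_one _
        _ < A.valuation (π ^ i) := hcon i
    · calc A.valuation ((P.coeff j : ℤ) : L) * A.valuation (π ^ j)
          ≤ 1 * A.valuation (π ^ j) := mul_le_mul' (valuation_intCast_le_one A _) le_rfl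
        _ = A.valuation (π ^ j) := one_mul _
        _ < A.valuation (π ^ i) := by
            rw [map_pow, map_pow]
            exact pow_lt_pow_right_of_lt_one₀ (zero_lt_iff.2 hvπ0) hπ hj'
  have heq : P.coeff i • π ^ i
      = -∑ j ∈ (Finset.range (P.natDegree + 1)).erase i, P.coeff j • π ^ j :=
    eq_neg_of_add_eq_zero_left hPπ
  rw [← hTi, heq, Valuation.map_neg] at hlt'
  exact lt_irrefl _ hlt'

/-- every nonzero element divides a power of `q` -/
theorem exists_q_pow_mul_mem [Algebra.IsAlgebraic ℚ L] (hq : q.Prime) (hA : A.LiesOverPrime q)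
    (d : L) : ∃ s : ℕ, (q : L) ^ s * d ∈ A := by
  have halg : IsAlgebraic ℤ d :=
    (IsFractionRing.isAlgebraic_iff ℤ ℚ L).2 (Algebra.IsAlgebraic.isAlgebraic d)
  obtain ⟨y, hy0, hy⟩ := halg.exists_integral_multiple
  -- `y • d ∈ A`
  have hmem : y • d ∈ A := by
    have h1 : IsIntegral A (y • d) := hy.tower_top
    obtain ⟨z, hz⟩ := IsIntegrallyClosed.isIntegral_iff.1 h1
    rw [← hz]
    exact z.2
  -- `y = q ^ s * a`, `q ∤ a`
  have hqp : Prime (q : ℤ) := Int.prime_iff_natAbs_prime.2 (by simpa using hq)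
  obtain ⟨s, a, ha, hya⟩ := WfDvdMonoid.max_power_factor hy0 hqp.irreducible
  refine ⟨s, ?_⟩
  have hva : A.valuation (a : L) = 1 := valuation_intCast_eq_one A hq hA ha
  rw [← ValuationSubring.valuation_le_one_iff] at hmem ⊢
  rw [zsmul_eq_mul, hya] at hmem
  push_cast at hmem
  rw [map_mul, map_mul, hva, mul_one, ← map_mul] at hmem
  exact hmem

/-- [ARCH] the valuation ring `A` has rank one. -/
theorem arch_of_liesOverPrime [Algebra.IsAlgebraic ℚ L] (hq : q.Prime) (hA : A.LiesOverPrime q)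
    (π c : L) (_hc : c ≠ 0) (hπ : π ∈ A) (hπ' : π⁻¹ ∉ A) : ∃ n : ℕ, π ^ n * c⁻¹ ∈ A := by
  have hπ0 : π ≠ 0 := by
    rintro rfl
    exact hπ' (by rw [inv_zero]; exact A.zero_mem)
  have hv : A.valuation π < 1 := by
    have h1 : A.valuation π ≤ 1 := (ValuationSubring.valuation_le_one_iff A π).2 hπ
    refine lt_of_le_of_ne h1 fun h => hπ' ?_
    rw [← ValuationSubring.valuation_le_one_iff, map_inv₀, h, inv_one]
  obtain ⟨n, hn⟩ := exists_pow_le_valuation_q A hq hA hπ0 hv
  obtain ⟨s, hs⟩ := exists_q_pow_mul_mem A hq hA c⁻¹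
  refine ⟨n * s, ?_⟩
  rw [← ValuationSubring.valuation_le_one_iff] at hs ⊢
  rw [map_mul] at hs ⊢
  refine le_trans (mul_le_mul' ?_ le_rfl) hs
  rw [pow_mul, map_pow (A.valuation) (π ^ n) s, map_pow (A.valuation) (q : L) s]
  exact pow_le_pow_left' hn s

end arch

end Fermat.Agent.SS
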