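import Mathlib
import Fermat.Agent.RED.TorsionInj

/-!
# SS, leaf [A6] (TORS2): injectivity of reduction on torsion, several components

`F / L` a function field, `O i` (`i : ι`) finitely many valuation rings of `F` (the generic points
of the components of the special fibre), `red i : O i →+* Fb` the reductions,
`r i : Place L F → Place k Fb` the specialisation maps and `G i` the set of *good* places of the
`i`-th component (the points which are not nodes).  A place `P` is of *smooth type* on the
component `i` if `r i P ∈ G i`; it is of *node type* if it is of smooth type on no component.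

The main result `isPrincipal_of_torsion_multi` says: a divisor `D` of degree `0`, supported on
places of smooth type, with `r i _* D = 0` on `G i` for every `i`, and with `m • D` principal
(`m` a unit) is principal.
-/

set_option autoImplicit false

namespace Fermat.Agent.SS

open AlgebraicCurve Fermat.Agent.S24 Fermat.Agent.RED

noncomputable section

variable {L F k Fb : Type*} [Field L] [Field F] [Algebra L F] [Field k] [Field Fb] [Algebra k Fb]

/-- Reduction data for one component of the special fibre; `G` is the set of good points. -/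
structure IsReductionOn (O : ValuationSubring F) (red : O →+* Fb)
    (r : Place L F → Place k Fb) (G : Set (Place k Fb)) : Prop where
  ker : ∀ x : O, red x = 0 ↔ O.valuation (x : F) < 1
  const : ∀ (c : L) (h : algebraMap L F c ∈ O), red ⟨_, h⟩ ∈ Set.range (algebraMap k Fb)
  scale : ∀ f : F, f ≠ 0 → ∃ c : L, O.valuation f = O.valuation (algebraMap L F c)
  div_red : ∀ x : O, O.valuation (x : F) = 1 → ∀ D : Divisor L F,
    (∀ P, D P = P.ord (x : F)) → ∀ Q ∈ G, D.mapDomain r Q = Q.ord (red x)
  exists_div : ∀ f : F, f ≠ 0 → ∃ D : Divisor L F, ∀ P, D P = P.ord f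
  exists_value : ∀ (P : Place L F) (f : F), f ∈ P.toValuationSubring →
    ∃ c : L, f = algebraMap L F c ∨ 0 < P.ord (f - algebraMap L F c)

theorem IsReductionOn.of_isReduction {O : ValuationSubring F} {red : O →+* Fb}
    {r : Place L F → Place k Fb} (h : IsReduction O red r) (G : Set (Place k Fb)) :
    IsReductionOn O red r G :=
  ⟨h.ker, h.const, h.scale, fun x hx D hD Q _ => h.div_red x hx D hD Q, h.exists_div,
    h.exists_value⟩

theorem IsReductionOn.mono {O : ValuationSubring F} {red : O →+* Fb}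
    {r : Place L F → Place k Fb} {G G' : Set (Place k Fb)} (h : IsReductionOn O red r G)
    (hG : G' ⊆ G) : IsReductionOn O red r G' :=
  ⟨h.ker, h.const, h.scale, fun x hx D hD Q hQ => h.div_red x hx D hD Q (hG hQ), h.exists_div,
    h.exists_value⟩

section One

variable {O : ValuationSubring F} {red : O →+* Fb} {r : Place L F → Place k Fb}
  {G : Set (Place k Fb)}

namespace IsReductionOn

variable (h : IsReductionOn O red r G)
include h

theorem rd_eq_zero_iff {f : F} (hf : f ∈ O) : rd O red f = 0 ↔ O.valuation f < 1 := by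
  rw [rd_of_mem hf]
  exact h.ker ⟨f, hf⟩

theorem rd_eq_zero {f : F} (hf : O.valuation f < 1) : rd O red f = 0 :=
  (h.rd_eq_zero_iff (mem_of_val_le hf.le)).mpr hf

theorem rd_ne_zero {f : F} (hf : O.valuation f = 1) : rd O red f ≠ 0 := by
  rw [Ne, h.rd_eq_zero_iff (mem_of_val_le hf.le), hf]
  exact lt_irrefl _

theorem val_eq_one_of_rd_ne_zero {f : F} (hf : rd O red f ≠ 0) : O.valuation f = 1 := by
  by_cases hm : f ∈ O
  · rcases (val_le_of_mem hm).lt_or_eq with hlt | heq
    · exact absurd (h.rd_eq_zero hlt) hf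
    · exact heq
  · exact absurd (dif_neg hm) hf

theorem rd_const (c : L) : rd O red (algebraMap L F c) ∈ Set.range (algebraMap k Fb) := by
  by_cases hm : algebraMap L F c ∈ O
  · rw [rd_of_mem hm]
    exact h.const c hm
  · refine ⟨0, ?_⟩
    rw [map_zero]
    unfold rd
    rw [dif_neg hm]

theorem rd_div {f g : F} (hf : f ∈ O) (hg : O.valuation g = 1) :
    rd O red (f / g) = rd O red f / rd O red g := by
  have hg0 : g ≠ 0 := by
    rintro rfl
    simp at hg
  have hgi : g⁻¹ ∈ O := mem_of_val_le (by rw [map_inv₀, hg, inv_one])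
  have hgm : g ∈ O := mem_of_val_le hg.le
  rw [eq_div_iff (h.rd_ne_zero hg), ← rd_mul (by rw [div_eq_mul_inv]; exact O.mul_mem _ _ hf hgi) hgm,
    div_mul_cancel₀ _ hg0]

/-- (P1) for elements of `F`. -/
theorem ord_rd {f : F} (hf : O.valuation f = 1) (D : Divisor L F) (hD : ∀ P, D P = P.ord f)
    {Q : Place k Fb} (hQ : Q ∈ G) : Q.ord (rd O red f) = D.mapDomain r Q := by
  rw [rd_of_mem (mem_of_val_le hf.le)]
  exact (h.div_red ⟨f, mem_of_val_le hf.le⟩ hf D hD Q hQ).symm

omit h in
theorem ne_zero_of_val_eq_one {f : F} (hf : O.valuation f = 1) : f ≠ 0 := by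
  rintro rfl
  simp at hf

/-- (A) -/
theorem ord_rd_nonneg {f : F} (hf : f ∈ O) {Q : Place k Fb} (hQ : Q ∈ G)
    (hpole : ∀ P, r P = Q → 0 ≤ P.ord f) : 0 ≤ Q.ord (rd O red f) := by
  rcases (val_le_of_mem hf).lt_or_eq with hlt | heq
  · rw [h.rd_eq_zero hlt]; simp
  · obtain ⟨D, hD⟩ := h.exists_div f (ne_zero_of_val_eq_one heq)
    rw [h.ord_rd heq D hD hQ]
    exact mapDomain_apply_nonneg r D Q fun P hP => by rw [hD]; exact hpole P hP

theorem ord_rd_pos {f : F} (hf : O.valuation f = 1) {Q : Place k Fb} (hQ : Q ∈ G)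
    (hpole : ∀ P, r P = Q → 0 ≤ P.ord f) (P0 : Place L F) (hP0 : r P0 = Q)
    (hpos : 0 < P0.ord f) : 0 < Q.ord (rd O red f) := by
  obtain ⟨D, hD⟩ := h.exists_div f (ne_zero_of_val_eq_one hf)
  rw [h.ord_rd hf D hD hQ]
  refine lt_of_lt_of_le ?_ (le_mapDomain_apply r D Q (fun P hP => by rw [hD]; exact hpole P hP)
    P0 hP0)
  rw [hD]; exact hpos

theorem ord_rd_eq_zero {f : F} (hf : O.valuation f = 1) {Q : Place k Fb} (hQ : Q ∈ G)
    (hz : ∀ P, r P = Q → P.ord f = 0) : Q.ord (rd O red f) = 0 := by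
  obtain ⟨D, hD⟩ := h.exists_div f (ne_zero_of_val_eq_one hf)
  rw [h.ord_rd hf D hD hQ]
  exact mapDomain_apply_eq_zero r D Q fun P hP => by rw [hD]; exact hz P hP

/-- (B), first half: the value of an integral function at a point where it is regular along
the whole fibre is integral. -/
theorem val_value_le_one {f : F} (hf : f ∈ O) {Q : Place k Fb} (hQ : Q ∈ G)
    (hreg : ∀ P, r P = Q → 0 ≤ P.ord f) {P : Place L F} (hP : r P = Q) {a : L}
    (ha : f = algebraMap L F a ∨ 0 < P.ord (f - algebraMap L F a)) :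
    O.valuation (algebraMap L F a) ≤ 1 := by
  by_contra hlt
  push Not at hlt
  rcases ha with ha | ha
  · rw [← ha] at hlt
    exact absurd (val_le_of_mem hf) (not_le.mpr hlt)
  have ha0 : a ≠ 0 := by
    rintro rfl
    simp at hlt
  have haF : algebraMap L F a ≠ 0 := by simpa using ha0
  set u : F := (f - algebraMap L F a) * algebraMap L F (-a⁻¹) with hu
  have hu' : u = 1 - f / algebraMap L F a := by
    rw [hu, map_neg, map_inv₀]
    field_simp
    ring
  have hfa : O.valuation (f / algebraMap L F a) < 1 := by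
    rw [map_div₀, div_lt_one₀ (lt_trans zero_lt_one hlt)]
    exact lt_of_le_of_lt (val_le_of_mem hf) hlt
  have hvu : O.valuation u = 1 := by
    rw [hu']
    exact Valuation.map_one_sub_of_lt _ hfa
  have hrdu : rd O red u = 1 := by
    rw [hu', rd_sub O.one_mem (mem_of_val_le hfa.le), rd_one, h.rd_eq_zero hfa, sub_zero]
  have hna : -a⁻¹ ≠ 0 := neg_ne_zero.mpr (inv_ne_zero ha0)
  have hpos := h.ord_rd_pos hvu hQ (fun P' hP' => by
    rw [hu, ord_mul_const _ _ hna]
    exact ord_sub_const_nonneg _ (hreg P' hP') a) P hP (by rw [hu, ord_mul_const _ _ hna]; exact ha)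
  rw [hrdu] at hpos
  simp at hpos

/-- (B), second half: evaluation commutes with reduction. -/
theorem rd_sub_value {f : F} (hf : f ∈ O) {Q : Place k Fb} (hQ : Q ∈ G)
    (hreg : ∀ P, r P = Q → 0 ≤ P.ord f) {P : Place L F} (hP : r P = Q) {a : L}
    (ha : f = algebraMap L F a ∨ 0 < P.ord (f - algebraMap L F a)) :
    rd O red f = rd O red (algebraMap L F a) ∨
      0 < Q.ord (rd O red f - rd O red (algebraMap L F a)) := by
  have hva := h.val_value_le_one hf hQ hreg hP ha
  rcases ha with ha | ha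
  · left; rw [← ha]
  have hmem : f - algebraMap L F a ∈ O := O.sub_mem hf (mem_of_val_le hva)
  rw [← rd_sub hf (mem_of_val_le hva)]
  rcases (val_le_of_mem hmem).lt_or_eq with hlt | heq
  · left
    have := h.rd_eq_zero hlt
    rw [rd_sub hf (mem_of_val_le hva)] at this
    exact sub_eq_zero.mp this
  · right
    exact h.ord_rd_pos heq hQ (fun P' hP' => ord_sub_const_nonneg _ (hreg P' hP') a) P hP ha

theorem exists_shift {Q : Place k Fb} (hQ : Q ∈ G) {T : F}
    (hT : IsLocalParam O red r Q T) {P : Place L F} (hP : r P = Q) :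
    ∃ a : L, O.valuation (algebraMap L F a) < 1 ∧ P.ord (T - algebraMap L F a) = 1 ∧
      ∀ P', r P' = Q → P' ≠ P → P'.ord (T - algebraMap L F a) = 0 := by
  have hTP : T ∈ P.toValuationSubring := by
    have hT0 : T ≠ 0 := by
      rintro rfl
      have := hT.ord
      rw [rd_of_mem O.zero_mem] at this
      have h0 : (⟨0, O.zero_mem⟩ : O) = 0 := rfl
      rw [h0, map_zero] at this
      simp at this
    exact (S24.Place.mem_iff_ord_nonneg P hT0).mpr (hT.reg P hP)
  obtain ⟨a, ha⟩ := h.exists_value P T hTP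
  have hva := h.val_value_le_one hT.mem hQ hT.reg hP ha
  have hrT0 : rd O red T ≠ 0 := ne_zero_of_ord_ne_zero Q (by rw [hT.ord]; norm_num)
  have hvT : O.valuation T = 1 := h.val_eq_one_of_rd_ne_zero hrT0
  -- the reduction of `a` vanishes
  have hra : rd O red (algebraMap L F a) = 0 := by
    by_contra hne
    obtain ⟨c, hc⟩ := h.rd_const a
    have hc0 : algebraMap k Fb c ≠ 0 := by rw [hc]; exact hne
    have hord : Q.ord (rd O red T - rd O red (algebraMap L F a)) = 0 := by
      rw [← hc, sub_eq_add_neg, add_comm,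
        S24.Place.ord_add_eq_of_lt Q (neg_ne_zero.mpr hc0) hrT0
          (by rw [S24.Place.ord_neg, S24.Place.ord_algebraMap, hT.ord]; norm_num),
        S24.Place.ord_neg, S24.Place.ord_algebraMap]
    rcases h.rd_sub_value hT.mem hQ hT.reg hP ha with h1 | h1
    · have := hT.ord
      rw [h1, ← hc, S24.Place.ord_algebraMap] at this
      norm_num at this
    · rw [hord] at h1
      exact lt_irrefl _ h1
  have hva1 : O.valuation (algebraMap L F a) < 1 :=
    (h.rd_eq_zero_iff (mem_of_val_le hva)).mp hra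
  have hrX : rd O red (T - algebraMap L F a) = rd O red T := by
    rw [rd_sub hT.mem (mem_of_val_le hva), hra, sub_zero]
  have hvX : O.valuation (T - algebraMap L F a) = 1 :=
    h.val_eq_one_of_rd_ne_zero (by rw [hrX]; exact hrT0)
  obtain ⟨D, hD⟩ := h.exists_div _ (ne_zero_of_val_eq_one hvX)
  have hsum : D.mapDomain r Q = 1 := by
    rw [← h.ord_rd hvX D hD hQ, hrX, hT.ord]
  obtain ⟨P0, hP0, hP01, hP0u⟩ := exists_unique_of_mapDomain_apply_eq_one r D Q
    (fun P' hP' => by rw [hD]; exact ord_sub_const_nonneg _ (hT.reg P' hP') a) hsum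
  have hPpos : 0 < P.ord (T - algebraMap L F a) := by
    rcases ha with ha | ha
    · rw [← ha, hvT] at hva1
      exact absurd hva1 (lt_irrefl _)
    · exact ha
  have hPP0 : P = P0 := by
    by_contra hne
    have := hP0u P hP hne
    rw [hD] at this
    omega
  subst hPP0
  refine ⟨a, hva1, by rw [← hD]; exact hP01, fun P' hP' hne => by rw [← hD]; exact hP0u P' hP' hne⟩

open Classical in
/-- The first order computation in a residue disc. -/
theorem local_lemma {Q : Place k Fb} (hQ : Q ∈ G) {T : F}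
    (hT : IsLocalParam O red r Q T) {m : ℕ} (hm : O.valuation (m : F) = 1)
    {P' P'' : Place L F} (hP' : r P' = Q) (hP'' : r P'' = Q) {f w : F} {c : L}
    (hf : ∀ P, r P = Q →
      P.ord f = m * ((if P = P' then 1 else 0) - (if P = P'' then 1 else 0)))
    (hc0 : c ≠ 0) (hc : O.valuation (algebraMap L F c) < 1) (hw : O.valuation w = 1)
    (hfw : f = 1 + algebraMap L F c * w) : -1 ≤ Q.ord (rd O red w) := by
  obtain ⟨α, hα, hα1, hα0⟩ := h.exists_shift hQ hT hP'
  obtain ⟨β, hβ, hβ1, hβ0⟩ := h.exists_shift hQ hT hP''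
  have hrT0 : rd O red T ≠ 0 := ne_zero_of_ord_ne_zero Q (by rw [hT.ord]; norm_num)
  set X' : F := T - algebraMap L F α with hX'
  set X'' : F := T - algebraMap L F β with hX''
  have hrX' : rd O red X' = rd O red T := by
    rw [hX', rd_sub hT.mem (mem_of_val_le hα.le), h.rd_eq_zero hα, sub_zero]
  have hrX'' : rd O red X'' = rd O red T := by
    rw [hX'', rd_sub hT.mem (mem_of_val_le hβ.le), h.rd_eq_zero hβ, sub_zero]
  have hvX' : O.valuation X' = 1 := h.val_eq_one_of_rd_ne_zero (by rw [hrX']; exact hrT0)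
  have hvX'' : O.valuation X'' = 1 := h.val_eq_one_of_rd_ne_zero (by rw [hrX'']; exact hrT0)
  have hX'0 : X' ≠ 0 := ne_zero_of_val_eq_one hvX'
  have hX''0 : X'' ≠ 0 := ne_zero_of_val_eq_one hvX''
  have hcw : O.valuation (algebraMap L F c * w) < 1 := by rw [map_mul, hw, mul_one]; exact hc
  have hvf : O.valuation f = 1 := by rw [hfw]; exact Valuation.map_one_add_of_lt _ hcw
  have hf0 : f ≠ 0 := ne_zero_of_val_eq_one hvf
  have hrf : rd O red f = 1 := by
    rw [hfw, rd_add O.one_mem (mem_of_val_le hcw.le), rd_one, h.rd_eq_zero hcw, add_zero]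
  have hvq : O.valuation (X'' / X') = 1 := by rw [map_div₀, hvX', hvX'', div_one]
  have hrq : rd O red (X'' / X') = 1 := by
    rw [h.rd_div (mem_of_val_le hvX''.le) hvX', hrX', hrX'', div_self hrT0]
  set U : F := f * (X'' / X') ^ m with hU
  have hvU : O.valuation U = 1 := by rw [hU, map_mul, map_pow, hvf, hvq, one_pow, one_mul]
  have hrU : rd O red U = 1 := by
    rw [hU, rd_mul (mem_of_val_le hvf.le) (O.pow_mem (mem_of_val_le hvq.le) m),
      rd_pow (mem_of_val_le hvq.le), hrf, hrq, one_pow, one_mul]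
  have hU0 : U ≠ 0 := ne_zero_of_val_eq_one hvU
  have hordX' : ∀ P, r P = Q → P.ord X' = if P = P' then 1 else 0 := by
    intro P hP
    split_ifs with hPP
    · rw [hPP]; exact hα1
    · exact hα0 P hP hPP
  have hordX'' : ∀ P, r P = Q → P.ord X'' = if P = P'' then 1 else 0 := by
    intro P hP
    split_ifs with hPP
    · rw [hPP]; exact hβ1
    · exact hβ0 P hP hPP
  have hordU : ∀ P, r P = Q → P.ord U = 0 := by
    intro P hP
    rw [hU, P.ord_mul hf0 (pow_ne_zero _ (div_ne_zero hX''0 hX'0)), S24.Place.ord_pow,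
      ord_div P hX''0 hX'0, hf P hP, hordX' P hP, hordX'' P hP]
    ring
  set u : F := U - 1 with hu
  have hvu : O.valuation u < 1 := by
    rw [← h.rd_eq_zero_iff (O.sub_mem (mem_of_val_le hvU.le) O.one_mem),
      rd_sub (mem_of_val_le hvU.le) O.one_mem, hrU, rd_one, sub_self]
  have hregu : ∀ P, r P = Q → 0 ≤ P.ord u := by
    intro P hP
    have := ord_sub_const_nonneg P (x := U) (by rw [hordU P hP]) (1 : L)
    rwa [map_one] at this
  set a' : L := α - β with ha'
  have hva' : O.valuation (algebraMap L F a') < 1 := by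
    rw [ha', map_sub]
    exact Valuation.map_sub_lt _ hα hβ
  set s : F := algebraMap L F a' / X'' with hs
  have hvs : O.valuation s < 1 := by rw [hs, map_div₀, hvX'', div_one]; exact hva'
  obtain ⟨p, hp⟩ := exists_one_sub_pow (⟨s, mem_of_val_le hvs.le⟩ : O) m
  have hp' : (1 - s) ^ m = 1 - m * s + s ^ 2 * (p : F) := by
    have := congrArg (Subtype.val) hp
    simpa using this
  have hq : X' / X'' = 1 - s := by
    have hXX : X' = X'' - algebraMap L F a' := by rw [hX', hX'', ha', map_sub]; ring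
    rw [hs, hXX, sub_div, div_self hX''0]
  have hfU : f = U * (1 - s) ^ m := by
    rw [hU, ← hq, mul_assoc, ← mul_pow, div_mul_div_comm, mul_comm X'' X',
      div_self (mul_ne_zero hX'0 hX''0), one_pow, mul_one]
  set Z : F := -(m : F) + s * (p : F) with hZ
  have hvsp : O.valuation (s * (p : F)) < 1 := by
    rw [map_mul]
    exact lt_of_le_of_lt (mul_le_of_le_one_right zero_le (val_le_of_mem p.2)) hvs
  have hmO : (m : F) ∈ O := mem_of_val_le hm.le
  have hrZ : rd O red Z = - rd O red (m : F) := by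
    rw [hZ, rd_add (O.neg_mem _ hmO) (mem_of_val_le hvsp.le), rd_neg hmO, h.rd_eq_zero hvsp,
      add_zero]
  have hrm0 : rd O red (m : F) ≠ 0 := h.rd_ne_zero hm
  have hvZ : O.valuation Z = 1 :=
    h.val_eq_one_of_rd_ne_zero (by rw [hrZ]; exact neg_ne_zero.mpr hrm0)
  set Y : F := U * Z / X'' with hY
  have hvY : O.valuation Y = 1 := by rw [hY, map_div₀, map_mul, hvU, hvZ, hvX'', one_mul, div_one]
  have hrY : rd O red Y = - rd O red (m : F) / rd O red T := by
    rw [hY, h.rd_div (O.mul_mem _ _ (mem_of_val_le hvU.le) (mem_of_val_le hvZ.le)) hvX'',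
      rd_mul (mem_of_val_le hvU.le) (mem_of_val_le hvZ.le), hrU, hrZ, hrX'', one_mul]
  have hordm : Q.ord (rd O red (m : F)) = 0 := by
    have : (m : F) = algebraMap L F (m : L) := by simp
    rw [this]
    exact ord_of_mem_range Q (h.rd_const _)
  have hordY : Q.ord (rd O red Y) = -1 := by
    rw [hrY, ord_div Q (neg_ne_zero.mpr hrm0) hrT0, S24.Place.ord_neg, hordm, hT.ord]
    norm_num
  have hkey : algebraMap L F c * w = u + algebraMap L F a' * Y := by
    have h1 : algebraMap L F c * w = f - 1 := by rw [hfw]; ring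
    rw [h1, hfU, hp', hY, hZ, hu]
    have h2 : algebraMap L F a' = s * X'' := by rw [hs, div_mul_cancel₀ _ hX''0]
    rw [h2]
    field_simp
    ring
  have hcF : algebraMap L F c ≠ 0 := by simpa using hc0
  have hvc0 : O.valuation (algebraMap L F c) ≠ 0 := (Valuation.ne_zero_iff _).mpr hcF
  rcases le_or_gt (O.valuation (algebraMap L F a')) (O.valuation (algebraMap L F c)) with hle | hlt
  · -- `w = u / c + (a' / c) Y`
    have hvac : O.valuation (algebraMap L F (a' / c)) ≤ 1 := by
      rw [map_div₀, map_div₀]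
      exact div_le_one_of_le₀ hle zero_le
    have hwe : w = u * algebraMap L F c⁻¹ + algebraMap L F (a' / c) * Y := by
      rw [map_div₀, map_inv₀]
      field_simp
      rw [mul_comm w, hkey]
    have hacY : algebraMap L F (a' / c) * Y ∈ O :=
      O.mul_mem _ _ (mem_of_val_le hvac) (mem_of_val_le hvY.le)
    have huc : u * algebraMap L F c⁻¹ ∈ O := by
      have : u * algebraMap L F c⁻¹ = w - algebraMap L F (a' / c) * Y := by rw [hwe]; ring
      rw [this]
      exact O.sub_mem (mem_of_val_le hw.le) hacY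
    rw [hwe, rd_add huc hacY]
    refine ord_add_ge' Q (by norm_num) ?_ ?_
    · refine le_trans (by norm_num) (h.ord_rd_nonneg huc hQ fun P hP => ?_)
      rw [ord_mul_const _ _ (inv_ne_zero hc0)]
      exact hregu P hP
    · rw [rd_mul (mem_of_val_le hvac) (mem_of_val_le hvY.le)]
      obtain ⟨e, he⟩ := h.rd_const (a' / c)
      rw [← he, mul_comm]
      rcases eq_or_ne e 0 with rfl | he0
      · simp
      · rw [ord_mul_const _ _ he0, hordY]
  · -- impossible
    exfalso
    have ha0 : a' ≠ 0 := by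
      intro h0
      rw [h0, map_zero, map_zero] at hlt
      exact not_lt_zero hlt
    have haF : algebraMap L F a' ≠ 0 := by simpa using ha0
    have hvca : O.valuation (algebraMap L F c / algebraMap L F a' * w) < 1 := by
      rw [map_mul, hw, mul_one, map_div₀]
      exact (div_lt_one₀ (lt_of_le_of_lt zero_le hlt)).mpr hlt
    have hue : u * algebraMap L F a'⁻¹ = algebraMap L F c / algebraMap L F a' * w - Y := by
      have : u = algebraMap L F c * w - algebraMap L F a' * Y := by rw [hkey]; ring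
      rw [this, map_inv₀]
      field_simp
    have hmem : u * algebraMap L F a'⁻¹ ∈ O := by
      rw [hue]
      exact O.sub_mem (mem_of_val_le hvca.le) (mem_of_val_le hvY.le)
    have hnn := h.ord_rd_nonneg hmem hQ fun P hP => by
      rw [ord_mul_const _ _ (inv_ne_zero ha0)]
      exact hregu P hP
    rw [hue, rd_sub (mem_of_val_le hvca.le) (mem_of_val_le hvY.le), h.rd_eq_zero hvca, zero_sub,
      S24.Place.ord_neg, hordY] at hnn
    norm_num at hnn

end IsReductionOn

end One

section Multi

variable {ι : Type*} {O : ι → ValuationSubring F} {red : ∀ i, O i →+* Fb}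
  {r : ι → Place L F → Place k Fb} {G : ι → Set (Place k Fb)}

theorem val_const_le_of_le (hmem : ∀ i j (c : L), algebraMap L F c ∈ O i → algebraMap L F c ∈ O j)
    (i j : ι) {c : L} (hc : (O i).valuation (algebraMap L F c) ≤ 1) :
    (O j).valuation (algebraMap L F c) ≤ 1 :=
  val_le_of_mem (hmem i j c (mem_of_val_le hc))

theorem val_const_lt_of_lt (hmem : ∀ i j (c : L), algebraMap L F c ∈ O i → algebraMap L F c ∈ O j)
    (i j : ι) {c : L} (hc : (O i).valuation (algebraMap L F c) < 1) :
    (O j).valuation (algebraMap L F c) < 1 := by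
  rcases eq_or_ne c 0 with rfl | hc0
  · simp
  by_contra hcon
  push Not at hcon
  have hcF : algebraMap L F c ≠ 0 := by simpa using hc0
  have h1 : (O j).valuation (algebraMap L F c⁻¹) ≤ 1 := by
    rw [map_inv₀, map_inv₀]
    exact inv_le_one_of_one_le₀ hcon
  have h2 := val_const_le_of_le hmem j i h1
  rw [map_inv₀, map_inv₀] at h2
  have h3 : (O i).valuation (algebraMap L F c) ≠ 0 := (Valuation.ne_zero_iff _).mpr hcF
  have h4 : 1 ≤ (O i).valuation (algebraMap L F c) := by
    rwa [inv_le_one₀ (zero_lt_iff.mpr h3)] at h2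
  exact absurd hc (not_lt.mpr h4)

theorem val_const_eq_one (hmem : ∀ i j (c : L), algebraMap L F c ∈ O i → algebraMap L F c ∈ O j)
    (i j : ι) {c : L} (hc : (O i).valuation (algebraMap L F c) = 1) :
    (O j).valuation (algebraMap L F c) = 1 := by
  rcases (val_const_le_of_le hmem i j hc.le).lt_or_eq with hlt | heq
  · have := val_const_lt_of_lt hmem j i hlt
    rw [hc] at this
    exact absurd this (lt_irrefl _)
  · exact heq

/-- Normalisation for the maximum norm. -/
theorem exists_normalise_multi [Finite ι] [Nonempty ι]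
    (h : ∀ i, IsReductionOn (O i) (red i) (r i) (G i))
    (hmem : ∀ i j (c : L), algebraMap L F c ∈ O i → algebraMap L F c ∈ O j)
    {f : F} (hf : f ≠ 0) :
    ∃ c : L, c ≠ 0 ∧ (∀ i, f * algebraMap L F c ∈ O i) ∧
      ∃ i, (O i).valuation (f * algebraMap L F c) = 1 := by
  have hex : ∀ i, ∃ c : L, (O i).valuation f = (O i).valuation (algebraMap L F c) :=
    fun i => (h i).scale f hf
  choose c hc using hex
  have hvf : ∀ i, (O i).valuation f ≠ 0 := fun i => (Valuation.ne_zero_iff _).mpr hf
  have hc0 : ∀ i, c i ≠ 0 := by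
    intro i h0
    have := hc i
    rw [h0, map_zero, map_zero] at this
    exact hvf i this
  obtain ⟨i0⟩ := ‹Nonempty ι›
  obtain ⟨i1, hi1⟩ := Finite.exists_max fun i => (O i0).valuation (algebraMap L F (c i))
  refine ⟨(c i1)⁻¹, inv_ne_zero (hc0 i1), fun i => ?_, i1, ?_⟩
  · apply mem_of_val_le
    have h1 : (O i0).valuation (algebraMap L F (c i / c i1)) ≤ 1 := by
      rw [map_div₀, map_div₀]
      exact div_le_one_of_le₀ (hi1 i) zero_le
    have h2 := val_const_le_of_le hmem i0 i h1
    rwa [map_div₀, map_div₀, ← hc i, div_eq_mul_inv, ← map_inv₀, ← map_inv₀, ← map_mul] at h2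
  · rw [map_mul, map_inv₀, map_inv₀, ← hc i1, mul_inv_cancel₀ (hvf i1)]

open Classical in
/-- **Injectivity of reduction on torsion prime to the residue characteristic**, several
components.  `hns` is the non-speciality of the reduction of `B = ∑ Pt a` on the (connected,
nodal) special fibre. -/
theorem isPrincipal_of_torsion_multi [Finite ι]
    (h : ∀ i, IsReductionOn (O i) (red i) (r i) (G i))
    (hmem : ∀ i j (c : L), algebraMap L F c ∈ O i → algebraMap L F c ∈ O j)
    (hconst : ∀ c : L, ∃ e : k, ∀ i, rd (O i) (red i) (algebraMap L F c) = algebraMap k Fb e)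
    (hdisj : ∀ i j P, r i P ∈ G i → r j P ∈ G j → i = j)
    {κ : Type*} [Fintype κ]
    (hRiemann : ∀ D : Divisor L F, Divisor.degree D = Fintype.card κ →
      ∃ φ : F, φ ≠ 0 ∧ ∀ P : Place L F, 0 ≤ P.ord φ + D P)
    (hdeg1 : ∀ P : Place L F, P.deg = 1)
    (s : κ → ι) (Pt : κ → Place L F) (hPt : ∀ a, r (s a) (Pt a) ∈ G (s a))
    (hinj : ∀ a b, s a = s b → r (s a) (Pt a) = r (s a) (Pt b) → a = b)
    (T : κ → F) (hT : ∀ a, IsLocalParam (O (s a)) (red (s a)) (r (s a)) (r (s a) (Pt a)) (T a))
    (hns : ∀ w : F, (∀ i, w ∈ O i) → (∀ P, (∀ i, r i P ∉ G i) → 0 ≤ P.ord w) →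
      (∀ i, ∀ Q ∈ G i, -(if ∃ a, s a = i ∧ r i (Pt a) = Q then 1 else 0 : ℤ) ≤
        Q.ord (rd (O i) (red i) w)) →
      ∃ e : k, ∀ i, rd (O i) (red i) w = algebraMap k Fb e)
    (i0 : ι) (P0 : Place L F) (hP0G : r i0 P0 ∈ G i0)
    (hP0 : ∀ a, s a = i0 → r i0 (Pt a) ≠ r i0 P0)
    {m : ℕ} (hm : ∀ i, (O i).valuation (m : F) = 1)
    (D : Divisor L F) (hD0 : Divisor.degree D = 0)
    (hDs : ∀ P, (∀ i, r i P ∉ G i) → D P = 0)
    (hrD : ∀ i, ∀ Q ∈ G i, D.mapDomain (r i) Q = 0)
    (hmD : Divisor.IsPrincipal (m • D)) : Divisor.IsPrincipal D := by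
  have : Nonempty ι := ⟨i0⟩
  have hs_of : ∀ i a, r i (Pt a) ∈ G i → s a = i := fun i a ha => hdisj _ _ _ (hPt a) ha
  have hPtinj : Function.Injective Pt := by
    intro a b hab
    have hs : s a = s b := hs_of _ _ (hab ▸ hPt b)
    exact hinj a b hs (by rw [hab])
  set B : Divisor L F := ∑ a, Finsupp.single (Pt a) (1 : ℤ) with hB
  have hBdeg : Divisor.degree B = Fintype.card κ := by
    rw [hB, map_sum]
    simp [hdeg1]
  have hBapp : ∀ P, B P = if P ∈ Set.range Pt then 1 else 0 :=
    sum_single_apply_of_injective Pt hPtinj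
  have hrB : ∀ i, ∀ Q ∈ G i,
      B.mapDomain (r i) Q = if ∃ a, s a = i ∧ r i (Pt a) = Q then 1 else 0 := by
    intro i Q hQ
    rw [hB, Finsupp.mapDomain_finsetSum]
    simp only [Finsupp.mapDomain_single]
    rw [Finsupp.finsetSum_apply]
    simp only [Finsupp.single_apply]
    split_ifs with hb
    · obtain ⟨a0, hsa0, ha0⟩ := hb
      rw [Finset.sum_eq_single a0]
      · rw [if_pos ha0]
      · intro a _ ha
        rw [if_neg]
        intro haQ
        have hsa : s a = i := hs_of i a (haQ ▸ hQ)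
        apply ha
        refine hinj a a0 (hsa.trans hsa0.symm) ?_
        rw [hsa, haQ, ha0]
      · intro hi
        exact absurd (Finset.mem_univ _) hi
    · refine Finset.sum_eq_zero fun a _ => if_neg fun (haQ : r i (Pt a) = Q) =>
        hb ⟨a, hs_of i a (haQ ▸ hQ), haQ⟩
  have hBnode : ∀ P, (∀ i, r i P ∉ G i) → B P = 0 := by
    intro P hP
    rw [hBapp, if_neg]
    rintro ⟨a, rfl⟩
    exact hP _ (hPt a)
  have hBout : ∀ i P, r i P ∈ G i → (¬ ∃ a, s a = i ∧ r i (Pt a) = r i P) → B P = 0 := by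
    intro i P hP hb
    rw [hBapp, if_neg]
    rintro ⟨a, rfl⟩
    exact hb ⟨a, hs_of i a hP, rfl⟩
  obtain ⟨φ0, hφ00, hφ0⟩ := hRiemann (D + B) (by rw [map_add, hD0, hBdeg, zero_add])
  obtain ⟨c0, hc0, hφO, i1, hvφ1⟩ := exists_normalise_multi h hmem hφ00
  set φ : F := φ0 * algebraMap L F c0 with hφ
  have hφne : φ ≠ 0 := IsReductionOn.ne_zero_of_val_eq_one hvφ1
  have hordφ : ∀ P : Place L F, P.ord φ = P.ord φ0 := fun P => ord_mul_const P _ hc0
  obtain ⟨Dφ, hDφ⟩ := (h i0).exists_div φ hφne
  set E : Divisor L F := Dφ + D + B with hE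
  have hEnn : ∀ P, 0 ≤ E P := by
    intro P
    have := hφ0 P
    rw [hE, Finsupp.add_apply, Finsupp.add_apply, hDφ, hordφ]
    rw [Finsupp.add_apply] at this
    linarith
  have hordrφ : ∀ i, (O i).valuation φ = 1 → ∀ Q ∈ G i,
      Q.ord (rd (O i) (red i) φ) = E.mapDomain (r i) Q - B.mapDomain (r i) Q := by
    intro i hvi Q hQ
    rw [(h i).ord_rd hvi Dφ hDφ hQ, hE, Finsupp.mapDomain_add,
      Finsupp.mapDomain_add, Finsupp.add_apply, Finsupp.add_apply, hrD i Q hQ]
    ring
  obtain ⟨eφ, heφ⟩ := hns φ hφO (fun P hP => by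
      have := hEnn P
      rw [hE, Finsupp.add_apply, Finsupp.add_apply, hDφ, hDs P hP, hBnode P hP] at this
      linarith) (fun i Q hQ => by
      rcases (val_le_of_mem (hφO i)).lt_or_eq with hlt | heq
      · rw [(h i).rd_eq_zero hlt]
        simp only [Place.ord_zero]
        split_ifs <;> norm_num
      · rw [hordrφ i heq Q hQ, hrB i Q hQ]
        have := mapDomain_apply_nonneg (r i) E Q fun P _ => hEnn P
        linarith)
  have heφ0 : eφ ≠ 0 := by
    rintro rfl
    have := heφ i1
    rw [map_zero] at this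
    exact (h i1).rd_ne_zero hvφ1 this
  have hvφ : ∀ i, (O i).valuation φ = 1 := fun i =>
    (h i).val_eq_one_of_rd_ne_zero (by rw [heφ i]; simpa using heφ0)
  have hrE : ∀ i, ∀ Q ∈ G i,
      E.mapDomain (r i) Q = if ∃ a, s a = i ∧ r i (Pt a) = Q then 1 else 0 := by
    intro i Q hQ
    have := hordrφ i (hvφ i) Q hQ
    rw [heφ i, S24.Place.ord_algebraMap, hrB i Q hQ] at this
    linarith
  -- the points of `E`
  have hEi : ∀ a, ∃ P', r (s a) P' = r (s a) (Pt a) ∧ E P' = 1 ∧
      ∀ P, r (s a) P = r (s a) (Pt a) → P ≠ P' → E P = 0 :=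
    fun a => exists_unique_of_mapDomain_apply_eq_one (r (s a)) E _ (fun P _ => hEnn P)
      (by rw [hrE _ _ (hPt a), if_pos ⟨a, rfl, rfl⟩])
  choose P' hP'r hP'1 hP'0 using hEi
  have hEout : ∀ i P, r i P ∈ G i → (¬ ∃ a, s a = i ∧ r i (Pt a) = r i P) → E P = 0 :=
    fun i P hP hb => eq_zero_of_mapDomain_apply_eq_zero (r i) E _ (fun P _ => hEnn P)
      (by rw [hrE i _ hP, if_neg hb]) P rfl
  -- the function with divisor `m (E - B)`
  obtain ⟨ψ, hψ0, hψ⟩ := hmD
  have hf00 : φ ^ m * ψ ≠ 0 := mul_ne_zero (pow_ne_zero _ hφne) hψ0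
  obtain ⟨c1, hc1, hf1O, i2, hvf12⟩ := exists_normalise_multi h hmem hf00
  set f1 : F := φ ^ m * ψ * algebraMap L F c1 with hf1
  have hf1ne : f1 ≠ 0 := IsReductionOn.ne_zero_of_val_eq_one hvf12
  have hordf1 : ∀ P : Place L F, P.ord f1 = m * (E P - B P) := by
    intro P
    rw [hf1, ord_mul_const P _ hc1, P.ord_mul (pow_ne_zero _ hφne) hψ0, S24.Place.ord_pow, ← hψ,
      ← hDφ, hE, Finsupp.smul_apply, Finsupp.add_apply, Finsupp.add_apply]
    simp only [nsmul_eq_mul]
    ring
  have hrf1ord : ∀ i, (O i).valuation f1 = 1 → ∀ Q ∈ G i, Q.ord (rd (O i) (red i) f1) = 0 := by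
    intro i hvi Q hQ
    rw [(h i).ord_rd hvi (m • (E - B)) (fun P => by
      rw [hordf1, Finsupp.smul_apply, Finsupp.sub_apply, nsmul_eq_mul]) hQ,
      Finsupp.mapDomain_smul, Finsupp.smul_apply, sub_eq_add_neg, Finsupp.mapDomain_add,
      Finsupp.add_apply, ← Finsupp.mapDomain.addMonoidHom_apply (r i) (-B), map_neg,
      Finsupp.neg_apply, Finsupp.mapDomain.addMonoidHom_apply, hrE i Q hQ, hrB i Q hQ]
    simp
  have hnodeEB : ∀ P, (∀ i, r i P ∉ G i) → (0 : ℤ) ≤ m * (E P - B P) := by
    intro P hP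
    rw [hBnode P hP, sub_zero]
    exact mul_nonneg (Int.natCast_nonneg m) (hEnn P)
  obtain ⟨e1, he1⟩ := hns f1 hf1O (fun P hP => by rw [hordf1]; exact hnodeEB P hP)
    (fun i Q hQ => by
      rcases (val_le_of_mem (hf1O i)).lt_or_eq with hlt | heq
      · rw [(h i).rd_eq_zero hlt]
        simp only [Place.ord_zero]
        split_ifs <;> norm_num
      · rw [hrf1ord i heq Q hQ]
        split_ifs <;> norm_num)
  have he10 : e1 ≠ 0 := by
    rintro rfl
    have := he1 i2
    rw [map_zero] at this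
    exact (h i2).rd_ne_zero hvf12 this
  have hvf1 : ∀ i, (O i).valuation f1 = 1 := fun i =>
    (h i).val_eq_one_of_rd_ne_zero (by rw [he1 i]; simpa using he10)
  have hP0b : ∀ P, r i0 P = r i0 P0 → ¬ ∃ a, s a = i0 ∧ r i0 (Pt a) = r i0 P := by
    rintro P hP ⟨a, hsa, ha⟩
    exact hP0 a hsa (ha.trans hP)
  have hf1reg : ∀ P, r i0 P = r i0 P0 → 0 ≤ P.ord f1 := by
    intro P hP
    rw [hordf1, hEout i0 P (hP ▸ hP0G) (hP0b P hP), hBout i0 P (hP ▸ hP0G) (hP0b P hP)]
    simp
  obtain ⟨a, ha⟩ := (h i0).exists_value P0 f1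
    ((S24.Place.mem_iff_ord_nonneg P0 hf1ne).mpr (hf1reg P0 rfl))
  have hva_le := (h i0).val_value_le_one (hf1O i0) hP0G hf1reg rfl ha
  obtain ⟨ea, hea⟩ := hconst a
  have hra0 : rd (O i0) (red i0) f1 = rd (O i0) (red i0) (algebraMap L F a) := by
    rcases (h i0).rd_sub_value (hf1O i0) hP0G hf1reg rfl ha with h1 | h1
    · exact h1
    · exfalso
      rw [he1 i0, hea i0, ← map_sub, S24.Place.ord_algebraMap] at h1
      exact lt_irrefl _ h1
  have heae : ea = e1 := by
    have := hra0
    rw [he1 i0, hea i0] at this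
    exact ((algebraMap k Fb).injective this).symm
  have hva : ∀ i, (O i).valuation (algebraMap L F a) = 1 := fun i =>
    (h i).val_eq_one_of_rd_ne_zero (by rw [hea i, heae]; simpa using he10)
  have haF : algebraMap L F a ≠ 0 := IsReductionOn.ne_zero_of_val_eq_one (hva i0)
  have ha0 : a ≠ 0 := by
    rintro rfl
    exact haF (map_zero _)
  set f : F := f1 * algebraMap L F a⁻¹ with hf
  have hfdiv : f = f1 / algebraMap L F a := by rw [hf, map_inv₀, div_eq_mul_inv]
  have hvf : ∀ i, (O i).valuation f = 1 := fun i => by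
    rw [hfdiv, map_div₀, hvf1 i, hva i, div_one]
  have hrf : ∀ i, rd (O i) (red i) f = 1 := fun i => by
    rw [hfdiv, (h i).rd_div (hf1O i) (hva i), he1 i, hea i, heae,
      div_self (by simpa using he10)]
  have hordf : ∀ P : Place L F, P.ord f = m * (E P - B P) := fun P => by
    rw [hf, ord_mul_const P _ (inv_ne_zero ha0), hordf1]
  have hm0 : (m : ℤ) ≠ 0 := by
    intro h0
    have : m = 0 := by exact_mod_cast h0
    have hm' := hm i0
    rw [this] at hm'
    simp at hm'
  by_cases hf1' : f = 1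
  · -- then `E = B`
    refine ⟨φ⁻¹, inv_ne_zero hφne, fun P => ?_⟩
    have := hordf P
    rw [hf1', Place.ord_one] at this
    have hEB : E P - B P = 0 := by
      rcases mul_eq_zero.mp this.symm with h1 | h1
      · exact absurd h1 hm0
      · exact h1
    rw [Place.ord_inv, ← hDφ]
    rw [hE, Finsupp.add_apply, Finsupp.add_apply] at hEB
    linarith
  · exfalso
    have hfsub : f - 1 = (f1 - algebraMap L F a) * algebraMap L F a⁻¹ := by
      rw [hf, map_inv₀]
      field_simp
    have hP0pos : 0 < P0.ord (f - 1) := by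
      rcases ha with ha | ha
      · exfalso
        apply hf1'
        rw [hfdiv, ← ha, div_self (ha ▸ haF)]
      · rw [hfsub, ord_mul_const _ _ (inv_ne_zero ha0)]
        exact ha
    have hfs0 : f - 1 ≠ 0 := sub_ne_zero.mpr hf1'
    have hvfs : ∀ i, (O i).valuation (f - 1) < 1 := fun i => by
      rw [← (h i).rd_eq_zero_iff ((O i).sub_mem (mem_of_val_le (hvf i).le) (O i).one_mem),
        rd_sub (mem_of_val_le (hvf i).le) (O i).one_mem, hrf i, rd_one, sub_self]
    obtain ⟨c2, hc2, hwO, i3, hvw3⟩ := exists_normalise_multi h hmem hfs0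
    set w : F := (f - 1) * algebraMap L F c2 with hw
    have hc2F : algebraMap L F c2 ≠ 0 := by simpa using hc2
    have hfw : f = 1 + algebraMap L F c2⁻¹ * w := by
      rw [hw, map_inv₀]
      field_simp
      ring
    have hvc3 : (O i3).valuation (algebraMap L F c2⁻¹) < 1 := by
      have h1 : (O i3).valuation (f - 1) * (O i3).valuation (algebraMap L F c2) = 1 := by
        rw [← map_mul]; exact hvw3
      have h2 : (O i3).valuation (algebraMap L F c2⁻¹) = (O i3).valuation (f - 1) := by
        rw [map_inv₀, map_inv₀]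
        exact (eq_inv_of_mul_eq_one_left h1).symm
      rw [h2]; exact hvfs i3
    have hvc : ∀ i, (O i).valuation (algebraMap L F c2⁻¹) < 1 := fun i =>
      val_const_lt_of_lt hmem i3 i hvc3
    have hwreg_of : ∀ P : Place L F, 0 ≤ P.ord f → 0 ≤ P.ord w := by
      intro P hP
      rw [hw, ord_mul_const _ _ hc2]
      have := ord_sub_const_nonneg P (x := f) hP (1 : L)
      rwa [map_one] at this
    have hwreg : ∀ i P, r i P ∈ G i → (¬ ∃ a, s a = i ∧ r i (Pt a) = r i P) → 0 ≤ P.ord w := by
      intro i P hP hb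
      refine hwreg_of P ?_
      rw [hordf, hEout i P hP hb, hBout i P hP hb]
      simp
    obtain ⟨e2, he2⟩ := hns w hwO
      (fun P hP => hwreg_of P (by rw [hordf]; exact hnodeEB P hP))
      (fun i Q hQ => by
        rcases (val_le_of_mem (hwO i)).lt_or_eq with hlt | hvw
        · rw [(h i).rd_eq_zero hlt]
          simp only [Place.ord_zero]
          split_ifs <;> norm_num
        split_ifs with hb
        · obtain ⟨a, rfl, rfl⟩ := hb
          refine (h (s a)).local_lemma hQ (hT a) (hm (s a)) (hP'r a) rfl (fun P hP => ?_)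
            (inv_ne_zero hc2) (hvc (s a)) hvw hfw
          rw [hordf]
          congr 2
          · split_ifs with hPP
            · rw [hPP]; exact hP'1 a
            · exact hP'0 a P hP hPP
          · rw [hBapp]
            by_cases hPP : P = Pt a
            · rw [if_pos hPP, if_pos ⟨a, hPP.symm⟩]
            · rw [if_neg hPP, if_neg]
              rintro ⟨b, rfl⟩
              apply hPP
              have hsb : s b = s a := hs_of _ _ (hP ▸ hQ)
              exact congrArg Pt (hinj b a hsb (by rw [hsb]; exact hP))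
        · simpa using (h i).ord_rd_nonneg (hwO i) hQ fun P hP =>
            hwreg i P (hP ▸ hQ) (by rw [hP]; exact hb))
    have he20 : e2 ≠ 0 := by
      rintro rfl
      have := he2 i3
      rw [map_zero] at this
      exact (h i3).rd_ne_zero hvw3 this
    have hvw0 : (O i0).valuation w = 1 :=
      (h i0).val_eq_one_of_rd_ne_zero (by rw [he2 i0]; simpa using he20)
    have hpos := (h i0).ord_rd_pos hvw0 hP0G
      (fun P hP => hwreg i0 P (hP ▸ hP0G) (hP0b P hP)) P0 rfl
      (by rw [hw, ord_mul_const _ _ hc2]; exact hP0pos)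
    rw [he2 i0, S24.Place.ord_algebraMap] at hpos
    exact lt_irrefl _ hpos

end Multi

end

end Fermat.Agent.SS
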