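import Mathlib

/-!
# SS, leaf [CL]: the connectedness lemma

`A` a local ring, `π ∈ A` a non unit, `B` a commutative `A`-algebra with two subalgebras `B₁`, `B₂`
(the two affine charts of a proper flat `A`-curve, inside the ring of the intersection).
If `B₁ ∩ B₂ = A`, `A` is `π`-saturated in `B₁`, and the `π`-power torsion of `B / (B₁ + B₂)` is
bounded, then every idempotent of the special fibre is trivial.

We also prove that a finitely generated module over a valuation ring has bounded torsion.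
-/

set_option autoImplicit false

namespace Fermat.Agent.SS

section Idem

variable {R : Type*} [CommRing R]

/-- Newton lifting of idempotents modulo powers of `π`. -/
theorem exists_lift_idem (π e : R) (h : π ∣ e ^ 2 - e) (n : ℕ) :
    ∃ e' : R, π ∣ e' - e ∧ π ^ (n + 1) ∣ e' ^ 2 - e' := by
  induction n with
  | zero => exact ⟨e, by simp, by simpa using h⟩
  | succ n ih =>
    obtain ⟨e', h1, h2⟩ := ih
    refine ⟨3 * e' ^ 2 - 2 * e' ^ 3, ?_, ?_⟩
    · have h3 : π ∣ e' ^ 2 - e' := (dvd_pow_self π (Nat.succ_ne_zero n)).trans h2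
      have : 3 * e' ^ 2 - 2 * e' ^ 3 - e = (e' ^ 2 - e') * (1 - 2 * e') + (e' - e) := by ring
      rw [this]
      exact dvd_add (h3.mul_right _) h1
    · have : (3 * e' ^ 2 - 2 * e' ^ 3) ^ 2 - (3 * e' ^ 2 - 2 * e' ^ 3)
          = (e' ^ 2 - e') * (e' ^ 2 - e') * (4 * (e' ^ 2 - e') - 3) := by ring
      rw [this]
      refine Dvd.dvd.mul_right ?_ _
      have h4 : π ^ (n + 1 + 1) ∣ π ^ (n + 1) * π ^ (n + 1) := by
        rw [← pow_add]
        exact pow_dvd_pow _ (by omega)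
      exact h4.trans (mul_dvd_mul h2 h2)

/-- Uniqueness of lifts of idempotents. -/
theorem dvd_sub_of_idem (π e e' : R) (n : ℕ) (h : π ^ n ∣ e ^ 2 - e) (h' : π ^ n ∣ e' ^ 2 - e')
    (hd : π ∣ e - e') : π ^ n ∣ e - e' := by
  have key : π ^ n ∣ (e - e') ^ 3 - (e - e') := by
    have : (e - e') ^ 3 - (e - e')
        = (e ^ 2 - e) * (e + 1 - 3 * e') + (e' ^ 2 - e') * (3 * e - e' - 1) := by ring
    rw [this]
    exact dvd_add (h.mul_right _) (h'.mul_right _)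
  have main : ∀ j : ℕ, j ≤ n → π ^ j ∣ e - e' := by
    intro j
    induction j with
    | zero => intro _; simp
    | succ j ih =>
      intro hj
      rcases Nat.eq_zero_or_pos j with rfl | hj0
      · simpa using hd
      have h1 := ih (by omega)
      have h2 : π ^ (j + 1) ∣ (e - e') ^ 3 :=
        (pow_dvd_pow π (by omega : j + 1 ≤ j * 3)).trans (by rw [pow_mul]; exact pow_dvd_pow_of_dvd h1 3)
      have h3 : π ^ (j + 1) ∣ (e - e') ^ 3 - (e - e') := (pow_dvd_pow π hj).trans key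
      have := dvd_sub h2 h3
      simpa using this
  exact main n le_rfl

end Idem

section CL

variable {A : Type*} [CommRing A] [IsLocalRing A] {B : Type*} [CommRing B] [Algebra A B]

/-- **Connectedness lemma.** -/
theorem connectedness (B₁ B₂ : Subalgebra A B) (π : A)
    (hcap : ∀ x : B, x ∈ B₁ → x ∈ B₂ → ∃ a : A, algebraMap A B a = x)
    (hsat : ∀ a : A, (∃ b ∈ B₁, algebraMap A B a = algebraMap A B π * b) → π ∣ a)
    (hH1 : ∃ c : ℕ, ∀ (n : ℕ) (x : B),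
      (∃ b₁ ∈ B₁, ∃ b₂ ∈ B₂, algebraMap A B (π ^ n) * x = b₁ + b₂) →
        ∃ b₁ ∈ B₁, ∃ b₂ ∈ B₂, algebraMap A B (π ^ c) * x = b₁ + b₂)
    (e₁ e₂ : B) (he₁ : e₁ ∈ B₁) (he₂ : e₂ ∈ B₂)
    (h₁ : ∃ b ∈ B₁, e₁ ^ 2 - e₁ = algebraMap A B π * b)
    (h₂ : ∃ b ∈ B₂, e₂ ^ 2 - e₂ = algebraMap A B π * b)
    (h₁₂ : ∃ b : B, e₁ - e₂ = algebraMap A B π * b) :
    (∃ b ∈ B₁, e₁ = algebraMap A B π * b) ∨ (∃ b ∈ B₁, e₁ - 1 = algebraMap A B π * b) := by
  obtain ⟨c, hc⟩ := hH1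
  set P : B := algebraMap A B π with hP
  -- lift the idempotents in `B₁` and in `B₂`
  obtain ⟨b, hb, hb'⟩ := h₁
  obtain ⟨E₁, hE₁, hE₁'⟩ := exists_lift_idem (algebraMap A B₁ π) (⟨e₁, he₁⟩ : B₁)
    ⟨⟨b, hb⟩, Subtype.ext hb'⟩ c
  obtain ⟨b', hb2, hb2'⟩ := h₂
  obtain ⟨E₂, hE₂, hE₂'⟩ := exists_lift_idem (algebraMap A B₂ π) (⟨e₂, he₂⟩ : B₂)
    ⟨⟨b', hb2⟩, Subtype.ext hb2'⟩ c
  -- transport to `B`
  have t1 : P ∣ (E₁ : B) - e₁ := by
    obtain ⟨z, hz⟩ := hE₁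
    exact ⟨z, congrArg Subtype.val hz⟩
  have t2 : P ∣ (E₂ : B) - e₂ := by
    obtain ⟨z, hz⟩ := hE₂
    exact ⟨z, congrArg Subtype.val hz⟩
  have t3 : P ^ (c + 1) ∣ (E₁ : B) ^ 2 - E₁ := by
    obtain ⟨z, hz⟩ := hE₁'
    exact ⟨z, congrArg Subtype.val hz⟩
  have t4 : P ^ (c + 1) ∣ (E₂ : B) ^ 2 - E₂ := by
    obtain ⟨z, hz⟩ := hE₂'
    exact ⟨z, congrArg Subtype.val hz⟩
  have t5 : P ∣ (E₁ : B) - E₂ := by
    obtain ⟨z, hz⟩ := h₁₂
    have : (E₁ : B) - E₂ = ((E₁ : B) - e₁) + (e₁ - e₂) - ((E₂ : B) - e₂) := by ring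
    rw [this]
    exact dvd_sub (dvd_add t1 ⟨z, hz⟩) t2
  obtain ⟨x, hx⟩ := dvd_sub_of_idem P (E₁ : B) (E₂ : B) (c + 1) t3 t4 t5
  -- use the bound on the torsion of `H¹`
  obtain ⟨b₁, hb₁, b₂, hb₂, hbb⟩ := hc (c + 1) x
    ⟨E₁, E₁.2, -E₂, B₂.neg_mem E₂.2, by rw [map_pow, ← hx]; ring⟩
  rw [map_pow] at hbb
  have hglue : (E₁ : B) - P * b₁ = E₂ + P * b₂ := by
    have : (E₁ : B) - E₂ = P * (b₁ + b₂) := by rw [hx, pow_succ', ← hbb]; ring
    linear_combination this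
  have hPB₁ : P ∈ B₁ := B₁.algebraMap_mem π
  have hPB₂ : P ∈ B₂ := B₂.algebraMap_mem π
  obtain ⟨a, ha⟩ := hcap ((E₁ : B) - P * b₁) (B₁.sub_mem E₁.2 (B₁.mul_mem hPB₁ hb₁))
    (hglue ▸ B₂.add_mem E₂.2 (B₂.mul_mem hPB₂ hb₂))
  -- `a` is idempotent modulo `π`
  obtain ⟨z, hz⟩ := hE₁'
  have hz' : (E₁ : B) ^ 2 - E₁ = P ^ (c + 1) * z := congrArg Subtype.val hz
  have hdvd : π ∣ a * (a - 1) := by
    apply hsat
    refine ⟨P ^ c * z - 2 * b₁ * E₁ + P * b₁ ^ 2 + b₁, ?_, ?_⟩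
    · exact B₁.add_mem (B₁.add_mem (B₁.sub_mem (B₁.mul_mem (B₁.pow_mem hPB₁ c) z.2)
        (B₁.mul_mem (B₁.mul_mem (by simp) hb₁) E₁.2))
        (B₁.mul_mem hPB₁ (B₁.pow_mem hb₁ 2))) hb₁
    · rw [map_mul, map_sub, map_one, ha]
      linear_combination hz'
  obtain ⟨y, hy⟩ := hE₁
  have hy' : (E₁ : B) - e₁ = P * y := congrArg Subtype.val hy
  rcases IsLocalRing.isUnit_or_isUnit_of_add_one (a := a) (b := 1 - a) (by ring) with hu | hu
  · -- `a` is a unit, so `π ∣ a - 1`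
    right
    obtain ⟨w, hw⟩ := (hu.dvd_mul_left).1 hdvd
    refine ⟨algebraMap A B w + b₁ - y, B₁.sub_mem (B₁.add_mem (B₁.algebraMap_mem w) hb₁) y.2, ?_⟩
    have h5 : algebraMap A B a - 1 = P * algebraMap A B w := by
      rw [hP, ← map_mul, ← hw, map_sub, map_one]
    rw [ha] at h5
    linear_combination h5 - hy'
  · -- `1 - a` is a unit, so `π ∣ a`
    left
    have hu' : IsUnit (a - 1) := by
      have : a - 1 = -(1 - a) := by ring
      rw [this]
      exact hu.neg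
    obtain ⟨w, hw⟩ := (hu'.dvd_mul_right).1 hdvd
    refine ⟨algebraMap A B w + b₁ - y, B₁.sub_mem (B₁.add_mem (B₁.algebraMap_mem w) hb₁) y.2, ?_⟩
    have h5 : algebraMap A B a = P * algebraMap A B w := by
      rw [hP, ← map_mul, ← hw]
    rw [ha] at h5
    linear_combination h5 - hy'

end CL

section Torsion

variable {A : Type*} [CommRing A] [IsDomain A]

/-- a finitely generated submodule consisting of torsion elements is killed by a nonzero scalar -/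
theorem exists_ne_zero_smul_of_fg {M : Type*} [AddCommGroup M] [Module A M] (T : Submodule A M)
    (hT : T.FG) (htors : ∀ x ∈ T, ∃ a : A, a ≠ 0 ∧ a • x = 0) :
    ∃ c : A, c ≠ 0 ∧ ∀ x ∈ T, c • x = 0 := by
  classical
  obtain ⟨s, rfl⟩ := hT
  choose! a ha0 ha using htors
  refine ⟨∏ x ∈ s, a x, ?_, ?_⟩
  · exact Finset.prod_ne_zero_iff.2 fun x hx => ha0 x (Submodule.subset_span hx)
  · intro x hx
    induction hx using Submodule.span_induction with
    | mem x hx =>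
      rw [← Finset.mul_prod_erase s a hx, mul_comm, mul_smul, ha x (Submodule.subset_span hx),
        smul_zero]
    | zero => rw [smul_zero]
    | add x y _ _ hx hy => rw [smul_add, hx, hy, add_zero]
    | smul r x _ hx => rw [smul_comm, hx, smul_zero]

/-- **Bounded torsion**: the torsion of a finitely generated module over a valuation ring is killed
by a nonzero scalar. -/
theorem exists_ne_zero_smul_torsion [ValuationRing A] (M : Type*) [AddCommGroup M] [Module A M]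
    [Module.Finite A M] :
    ∃ c : A, c ≠ 0 ∧ ∀ x : M, (∃ a : A, a ≠ 0 ∧ a • x = 0) → c • x = 0 := by
  classical
  set T : Submodule A M := Submodule.torsion A M with hT
  have hflat : Module.Flat A (M ⧸ T) :=
    Module.Flat.flat_iff_torsion_eq_bot_of_isBezout.2 Submodule.QuotientTorsion.torsion_eq_bot
  have hfree : Module.Free A (M ⧸ T) := Module.free_of_flat_of_isLocalRing
  obtain ⟨sec, hsec⟩ := Module.projective_lifting_property T.mkQ LinearMap.id T.mkQ_surjective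
  -- the projection onto the torsion
  have hfg : T.FG := by
    have hrange : T = LinearMap.range (LinearMap.id - sec.comp T.mkQ) := by
      apply le_antisymm
      · intro x hx
        refine ⟨x, ?_⟩
        have : T.mkQ x = 0 := (Submodule.Quotient.mk_eq_zero T).2 hx
        simp [this]
      · rintro _ ⟨x, rfl⟩
        rw [← Submodule.Quotient.mk_eq_zero T]
        have h1 : T.mkQ (sec (T.mkQ x)) = T.mkQ x := LinearMap.congr_fun hsec (T.mkQ x)
        show T.mkQ ((LinearMap.id - sec.comp T.mkQ : M →ₗ[A] M) x) = 0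
        rw [LinearMap.sub_apply, LinearMap.id_apply, LinearMap.comp_apply, map_sub, h1, sub_self]
    rw [hrange, LinearMap.range_eq_map]
    exact (Module.Finite.fg_top).map _
  obtain ⟨c, hc0, hc⟩ := exists_ne_zero_smul_of_fg T hfg (by
    intro x hx
    obtain ⟨a, ha⟩ := (Submodule.mem_torsion_iff x).1 hx
    exact ⟨a, nonZeroDivisors.coe_ne_zero a, ha⟩)
  refine ⟨c, hc0, fun x hx => hc x ?_⟩
  obtain ⟨a, ha0, ha⟩ := hx
  exact (Submodule.mem_torsion_iff x).2 ⟨⟨a, mem_nonZeroDivisors_of_ne_zero ha0⟩, ha⟩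

/-- the hypothesis `hH1` of the connectedness lemma from finite generation of `H¹`, for a valuation
ring of rank one. -/
theorem bounded_of_finite [ValuationRing A] {B : Type*} [CommRing B] [Algebra A B]
    (B₁ B₂ : Subalgebra A B) (π : A) (hπ0 : π ≠ 0) (hrank : ∀ c : A, c ≠ 0 → ∃ n : ℕ, c ∣ π ^ n)
    (hfin : Module.Finite A (B ⧸ (Subalgebra.toSubmodule B₁ ⊔ Subalgebra.toSubmodule B₂))) :
    ∃ c : ℕ, ∀ (n : ℕ) (x : B),
      (∃ b₁ ∈ B₁, ∃ b₂ ∈ B₂, algebraMap A B (π ^ n) * x = b₁ + b₂) →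
        ∃ b₁ ∈ B₁, ∃ b₂ ∈ B₂, algebraMap A B (π ^ c) * x = b₁ + b₂ := by
  set Q := Subalgebra.toSubmodule B₁ ⊔ Subalgebra.toSubmodule B₂ with hQ
  obtain ⟨c, hc0, hc⟩ := exists_ne_zero_smul_torsion (A := A) (B ⧸ Q)
  obtain ⟨k, d, hd⟩ := hrank c hc0
  refine ⟨k, fun n x hx => ?_⟩
  obtain ⟨b₁, hb₁, b₂, hb₂, hbb⟩ := hx
  have h1 : (π ^ n) • Q.mkQ x = 0 := by
    rw [← map_smul, Algebra.smul_def, hbb]
    exact (Submodule.Quotient.mk_eq_zero Q).2
      (Submodule.add_mem_sup ((Subalgebra.mem_toSubmodule B₁).2 hb₁) ((Subalgebra.mem_toSubmodule B₂).2 hb₂))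
  have h2 := hc (Q.mkQ x) ⟨π ^ n, pow_ne_zero _ hπ0, h1⟩
  have h3 : (π ^ k) • Q.mkQ x = 0 := by rw [hd, mul_comm, mul_smul, h2, smul_zero]
  rw [← map_smul] at h3
  have h4 : (π ^ k) • x ∈ Q := (Submodule.Quotient.mk_eq_zero Q).1 h3
  obtain ⟨y, hy, z, hz, hyz⟩ := Submodule.mem_sup.1 h4
  exact ⟨y, (Subalgebra.mem_toSubmodule B₁).1 hy, z, (Subalgebra.mem_toSubmodule B₂).1 hz, by
    rw [hyz, Algebra.smul_def]⟩

end Torsion

end Fermat.Agent.SS
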