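import Mathlib

/-!
# SS, leaf [FIX]: subrings of `Ob × Ob` containing the two graphs of Frobenius are nodal

`k` algebraically closed, `Ob` a commutative `k`-algebra, `Fr : Ob →ₐ[k] Ob` with
`Fr (Fr a)` an `n`-th power for every `a` (`n ≥ 2`).  A `k`-subalgebra `S ⊆ Ob × Ob` of finite
codimension containing all `(a, Fr a)` and `(Fr a, a)` is of the form
`{(u₁,u₂) | ∀ x ∈ Sg, x u₁ = x (Fr u₂)}` for a finite set `Σ` of `k`-points of `Ob`, fixed by
`Fr²`, with `#Σ = codim S`, and the evaluation at the points of `Σ` is surjective.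
-/

set_option autoImplicit false

namespace Fermat.Agent.SS

open Module

section Reduced

variable {k : Type*} [Field k] [IsAlgClosed k] {Q : Type*} [CommRing Q] [Algebra k Q]
  [FiniteDimensional k Q]

/-- every maximal ideal of a finite dimensional algebra over an algebraically closed field is the
kernel of a `k`-point -/
theorem exists_algHom_of_isMaximal (m : Ideal Q) (hm : m.IsMaximal) :
    ∃ x : Q →ₐ[k] k, ∀ a, x a = 0 → a ∈ m := by
  let _ : Field (Q ⧸ m) := Ideal.Quotient.field m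
  have : FiniteDimensional k (Q ⧸ m) :=
    Module.Finite.of_surjective (Ideal.Quotient.mkₐ k m).toLinearMap
      (Ideal.Quotient.mkₐ_surjective k m)
  have hbij : Function.Bijective (algebraMap k (Q ⧸ m)) :=
    IsAlgClosed.algebraMap_bijective_of_isIntegral
  let e : k ≃ₐ[k] (Q ⧸ m) := AlgEquiv.ofBijective (Algebra.ofId k (Q ⧸ m)) hbij
  refine ⟨(e.symm : (Q ⧸ m) →ₐ[k] k).comp (Ideal.Quotient.mkₐ k m), fun a ha => ?_⟩
  have h1 : e.symm (Ideal.Quotient.mk m a) = 0 := ha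
  have h2 : Ideal.Quotient.mk m a = 0 := by
    rw [← e.apply_symm_apply (Ideal.Quotient.mk m a), h1, map_zero]
  exact Ideal.Quotient.eq_zero_iff_mem.1 h2

/-- the `k`-points of a reduced finite dimensional algebra separate its elements -/
theorem eq_zero_of_forall_algHom [IsReduced Q] (a : Q) (h : ∀ x : Q →ₐ[k] k, x a = 0) : a = 0 := by
  have : IsArtinianRing Q := IsArtinianRing.of_finite k Q
  have hj : a ∈ Ideal.jacobson (⊥ : Ideal Q) := by
    rw [Ideal.jacobson, Ideal.mem_sInf]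
    rintro m ⟨-, hm⟩
    obtain ⟨x, hx⟩ := exists_algHom_of_isMaximal (k := k) m hm
    exact hx a (h x)
  obtain ⟨r, hr⟩ := IsArtinianRing.isNilpotent_jacobson_bot (R := Q)
  have h1 : a ^ r ∈ (Ideal.jacobson (⊥ : Ideal Q)) ^ r := Ideal.pow_mem_pow hj r
  rw [hr] at h1
  exact IsNilpotent.eq_zero ⟨r, h1⟩

instance finite_algHom_base : Finite (Q →ₐ[k] k) := by
  have h := linearIndependent_toLinearMap k Q k
  exact h.finite

/-- structure of reduced finite dimensional algebras over an algebraically closed field -/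
theorem bijective_eval [IsReduced Q] :
    Function.Bijective (fun (a : Q) (x : Q →ₐ[k] k) => x a) ∧
      Nat.card (Q →ₐ[k] k) = finrank k Q := by
  classical
  have := Fintype.ofFinite (Q →ₐ[k] k)
  let ev : Q →ₗ[k] ((Q →ₐ[k] k) → k) :=
    { toFun := fun a x => x a
      map_add' := fun a b => funext fun x => map_add x a b
      map_smul' := fun c a => funext fun x => by simp }
  have hinj : Function.Injective ev := by
    rw [injective_iff_map_eq_zero]
    intro a ha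
    exact eq_zero_of_forall_algHom a fun x => congrFun ha x
  have h1 : finrank k Q ≤ Fintype.card (Q →ₐ[k] k) := by
    have := LinearMap.finrank_le_finrank_of_injective hinj
    rwa [finrank_fintype_fun_eq_card] at this
  have h2 : Fintype.card (Q →ₐ[k] k) ≤ finrank k Q := by
    have := (linearIndependent_toLinearMap k Q k).fintype_card_le_finrank
    rwa [show finrank k (Q →ₗ[k] k) = finrank k Q from Subspace.dual_finrank_eq] at this
  have h3 : finrank k Q = finrank k ((Q →ₐ[k] k) → k) := by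
    rw [finrank_fintype_fun_eq_card]
    omega
  refine ⟨⟨hinj, (LinearMap.injective_iff_surjective_of_finrank_eq_finrank h3).1 hinj⟩, ?_⟩
  rw [Nat.card_eq_fintype_card]
  omega

end Reduced

section Nodes

variable {k : Type*} [Field k] [IsAlgClosed k] {Ob : Type*} [CommRing Ob] [Algebra k Ob]

/-- the conductor-like ideal `{a | (a,0) ∈ S}` -/
def nodeIdeal (Fr : Ob →ₐ[k] Ob) (S : Subalgebra k (Ob × Ob)) (hS1 : ∀ a, (a, Fr a) ∈ S) :
    Ideal Ob where
  carrier := {a | (a, 0) ∈ S}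
  zero_mem' := S.zero_mem
  add_mem' := fun {a b} ha hb => by
    have := S.add_mem ha hb
    simpa using this
  smul_mem' := fun b a ha => by
    have := S.mul_mem (hS1 b) ha
    simpa using this

omit [IsAlgClosed k] in
theorem mem_nodeIdeal (Fr : Ob →ₐ[k] Ob) (S : Subalgebra k (Ob × Ob)) (hS1 : ∀ a, (a, Fr a) ∈ S)
    (a : Ob) : a ∈ nodeIdeal Fr S hS1 ↔ (a, 0) ∈ S := Iff.rfl

omit [IsAlgClosed k] in
theorem mem_iff_sub_mem_nodeIdeal (Fr : Ob →ₐ[k] Ob) (S : Subalgebra k (Ob × Ob))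
    (hS1 : ∀ a, (a, Fr a) ∈ S) (hS2 : ∀ a, (Fr a, a) ∈ S) (u : Ob × Ob) :
    u ∈ S ↔ u.1 - Fr u.2 ∈ nodeIdeal Fr S hS1 := by
  rw [mem_nodeIdeal]
  have h : (u.1 - Fr u.2, (0 : Ob)) = u - (Fr u.2, u.2) := by
    ext <;> simp
  rw [h]
  constructor
  · intro hu
    exact S.sub_mem hu (hS2 _)
  · intro hu
    have := S.add_mem hu (hS2 u.2)
    simpa using this

/-- the map `(u₁,u₂) ↦ [u₁ - Fr u₂]` -/
def nodeMap (Fr : Ob →ₐ[k] Ob) (S : Subalgebra k (Ob × Ob)) (hS1 : ∀ a, (a, Fr a) ∈ S) :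
    (Ob × Ob) →ₗ[k] (Ob ⧸ nodeIdeal Fr S hS1) :=
  (Ideal.Quotient.mkₐ k (nodeIdeal Fr S hS1)).toLinearMap.comp
    (LinearMap.fst k Ob Ob - Fr.toLinearMap.comp (LinearMap.snd k Ob Ob))

/-- **[FIX]**. -/
theorem exists_nodes (Fr : Ob →ₐ[k] Ob) (n : ℕ) (hn : 2 ≤ n)
    (hpow : ∀ a : Ob, ∃ b : Ob, Fr (Fr a) = b ^ n)
    (S : Subalgebra k (Ob × Ob)) (hS1 : ∀ a, (a, Fr a) ∈ S) (hS2 : ∀ a, (Fr a, a) ∈ S)
    [FiniteDimensional k ((Ob × Ob) ⧸ Subalgebra.toSubmodule S)] :
    ∃ Sg : Finset (Ob →ₐ[k] k), (∀ x ∈ Sg, ∀ a, x (Fr (Fr a)) = x a) ∧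
      (∀ u : Ob × Ob, u ∈ S ↔ ∀ x ∈ Sg, x u.1 = x (Fr u.2)) ∧
      Sg.card = finrank k ((Ob × Ob) ⧸ Subalgebra.toSubmodule S) ∧
      ∀ c : (Ob →ₐ[k] k) → k, ∃ a : Ob, ∀ x ∈ Sg, x a = c x := by
  classical
  set J := nodeIdeal Fr S hS1 with hJ
  set θ := nodeMap Fr S hS1 with hθ
  have hθapp : ∀ u : Ob × Ob, θ u = Ideal.Quotient.mk J (u.1 - Fr u.2) := fun u => rfl
  have hθsurj : Function.Surjective θ := by
    intro y
    obtain ⟨a, rfl⟩ := Ideal.Quotient.mk_surjective y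
    exact ⟨(a, 0), by rw [hθapp]; simp only [map_zero, sub_zero]; rfl⟩
  have hker : LinearMap.ker θ = Subalgebra.toSubmodule S := by
    ext u
    rw [LinearMap.mem_ker, hθapp, Ideal.Quotient.eq_zero_iff_mem, Subalgebra.mem_toSubmodule,
      mem_iff_sub_mem_nodeIdeal Fr S hS1 hS2]
  let E : ((Ob × Ob) ⧸ Subalgebra.toSubmodule S) ≃ₗ[k] (Ob ⧸ J) :=
    (Submodule.quotEquivOfEq _ _ hker.symm).trans (θ.quotKerEquivOfSurjective hθsurj)
  have hfin : FiniteDimensional k (Ob ⧸ J) := Module.Finite.equiv E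
  -- `a - Fr² a ∈ J`
  have hI : ∀ a, a - Fr (Fr a) ∈ J := by
    intro a
    rw [hJ, mem_nodeIdeal]
    have := S.sub_mem (hS1 a) (hS2 (Fr a))
    simpa using this
  -- `Ob ⧸ J` is reduced
  have hred : IsReduced (Ob ⧸ J) := by
    have : IsNoetherianRing (Ob ⧸ J) := IsNoetherianRing.of_finite k _
    obtain ⟨r, hr⟩ := IsNoetherianRing.isNilpotent_nilradical (Ob ⧸ J)
    have hbound : ∀ y : Ob ⧸ J, IsNilpotent y → y ^ r = 0 := by
      intro y hy
      have : y ^ r ∈ (nilradical (Ob ⧸ J)) ^ r := Ideal.pow_mem_pow (mem_nilradical.2 hy) r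
      rwa [hr] at this
    have hroot : ∀ y : Ob ⧸ J, IsNilpotent y → ∃ z : Ob ⧸ J, IsNilpotent z ∧ y = z ^ n := by
      intro y hy
      obtain ⟨a, rfl⟩ := Ideal.Quotient.mk_surjective y
      obtain ⟨b, hb⟩ := hpow a
      have h1 : Ideal.Quotient.mk J a = (Ideal.Quotient.mk J b) ^ n := by
        rw [← map_pow, ← hb]
        exact Ideal.Quotient.eq.2 (hI a)
      refine ⟨Ideal.Quotient.mk J b, ?_, h1⟩
      rw [h1] at hy
      exact hy.of_pow
    have hiter : ∀ j : ℕ, ∀ y : Ob ⧸ J, IsNilpotent y →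
        ∃ z : Ob ⧸ J, IsNilpotent z ∧ y = z ^ (n ^ j) := by
      intro j
      induction j with
      | zero => intro y hy; exact ⟨y, hy, by simp⟩
      | succ j ih =>
        intro y hy
        obtain ⟨z, hz, rfl⟩ := ih y hy
        obtain ⟨w, hw, rfl⟩ := hroot z hz
        exact ⟨w, hw, by rw [← pow_mul, pow_succ']⟩
    refine ⟨fun y hy => ?_⟩
    obtain ⟨z, hz, rfl⟩ := hiter r y hy
    have h2 : r ≤ n ^ r := (Nat.lt_pow_self (by omega)).le
    rw [← Nat.sub_add_cancel h2, pow_add, hbound z hz, mul_zero]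
  obtain ⟨⟨hinj, hsurj⟩, hcard⟩ := bijective_eval (k := k) (Q := Ob ⧸ J)
  have := Fintype.ofFinite ((Ob ⧸ J) →ₐ[k] k)
  let ι : ((Ob ⧸ J) →ₐ[k] k) → (Ob →ₐ[k] k) := fun x => x.comp (Ideal.Quotient.mkₐ k J)
  have hι : Function.Injective ι := by
    intro x y hxy
    ext a
    obtain ⟨a, rfl⟩ := Ideal.Quotient.mk_surjective a
    exact DFunLike.congr_fun hxy a
  have hmemJ : ∀ a : Ob, a ∈ J ↔ ∀ x : (Ob ⧸ J) →ₐ[k] k, ι x a = 0 := by
    intro a
    constructor
    · intro ha x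
      show x (Ideal.Quotient.mk J a) = 0
      rw [Ideal.Quotient.eq_zero_iff_mem.2 ha, map_zero]
    · intro h
      rw [← Ideal.Quotient.eq_zero_iff_mem]
      apply hinj
      funext x
      show x (Ideal.Quotient.mk J a) = x 0
      rw [map_zero]
      exact h x
  refine ⟨Finset.univ.image ι, ?_, ?_, ?_, ?_⟩
  · intro x hx a
    obtain ⟨x, -, rfl⟩ := Finset.mem_image.1 hx
    have := (hmemJ _).1 (hI a) x
    rw [map_sub, sub_eq_zero] at this
    exact this.symm
  · intro u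
    rw [mem_iff_sub_mem_nodeIdeal Fr S hS1 hS2, ← hJ, hmemJ]
    constructor
    · intro h x hx
      obtain ⟨x, -, rfl⟩ := Finset.mem_image.1 hx
      have := h x
      rwa [map_sub, sub_eq_zero] at this
    · intro h x
      rw [map_sub, sub_eq_zero]
      exact h _ (Finset.mem_image_of_mem _ (Finset.mem_univ x))
  · rw [Finset.card_image_of_injective _ hι, Finset.card_univ, ← Nat.card_eq_fintype_card, hcard]
    exact (LinearEquiv.finrank_eq E).symm
  · intro c
    obtain ⟨y, hy⟩ := hsurj (fun x => c (ι x))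
    obtain ⟨a, rfl⟩ := Ideal.Quotient.mk_surjective y
    refine ⟨a, fun x hx => ?_⟩
    obtain ⟨x, -, rfl⟩ := Finset.mem_image.1 hx
    exact congrFun hy x

end Nodes

end Fermat.Agent.SS
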