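import Mathlib

/-!
# SS, leaf [LIN]

Two linear forms on a vector space over an infinite field whose `m`-th powers agree pointwise
differ by an `m`-th root of unity.
-/

set_option autoImplicit false

namespace Fermat.Agent.SS

theorem exists_root_smul_of_pow_eq {k : Type*} [Field k] [Infinite k] {W : Type*} [AddCommGroup W]
    [Module k W] {m : ℕ} (hm : m ≠ 0) (lam mu : W →ₗ[k] k) (h : ∀ w, lam w ^ m = mu w ^ m) :
    ∃ z : k, z ^ m = 1 ∧ lam = z • mu := by
  classical
  let R : Finset k := (Polynomial.nthRoots m (1 : k)).toFinset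
  have hR : ∀ z : k, z ∈ R ↔ z ^ m = 1 := by
    intro z
    simp only [R, Multiset.mem_toFinset, Polynomial.mem_nthRoots (Nat.pos_of_ne_zero hm)]
  have hcov : ⋃ z : R, ((LinearMap.ker (lam - (z : k) • mu) : Submodule k W) : Set W) = Set.univ := by
    rw [Set.eq_univ_iff_forall]
    intro w
    rw [Set.mem_iUnion]
    by_cases hw : mu w = 0
    · refine ⟨⟨1, (hR 1).2 (one_pow m)⟩, ?_⟩
      have h1 : lam w = 0 := by
        have := h w
        rw [hw, zero_pow hm] at this
        exact pow_eq_zero_iff hm |>.1 this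
      simp [hw, h1]
    · refine ⟨⟨lam w / mu w, (hR _).2 ?_⟩, ?_⟩
      · rw [div_pow, h w, div_self (pow_ne_zero _ hw)]
      · simp [div_mul_cancel₀ _ hw]
  obtain ⟨z, hz⟩ := Subspace.exists_eq_top_of_iUnion_eq_univ hcov
  refine ⟨z, (hR _).1 z.2, ?_⟩
  rw [LinearMap.ker_eq_top] at hz
  exact sub_eq_zero.1 hz

end Fermat.Agent.SS
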