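import Mathlib

/-!
# SS / [CL] : the connectedness lemma

Pure algebra.  `R` is an `A`-algebra with two subalgebras `B₁`, `B₂` ("two affine charts",
`R` = functions on the intersection).  If `e₁ ∈ B₁`, `e₂ ∈ B₂` are idempotent modulo `π` and
congruent modulo `π` on the intersection, and if the `π`-power torsion of
`H¹ = R / (B₁ + B₂)` is bounded, then there is a *global* element `ε ∈ B₁ ∩ B₂` congruent to `e₁`
modulo `π B₁` and to `e₂` modulo `π B₂`.
-/

set_option autoImplicit false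

namespace Fermat.Agent.SS

section Newton

variable {A R : Type*} [CommRing A] [CommRing R] [Algebra A R]

/-- One Newton step for idempotents. -/
theorem newton_step (B : Subalgebra A R) (π : A) {k : ℕ} {e : R} (he : e ∈ B)
    (h : ∃ b ∈ B, e ^ 2 - e = π ^ k • b) :
    ∃ e' ∈ B, (∃ b ∈ B, e' ^ 2 - e' = π ^ (2 * k) • b) ∧ ∃ b ∈ B, e' - e = π ^ k • b := by
  obtain ⟨b, hb, hbe⟩ := h
  refine ⟨e + (e ^ 2 - e) * (1 - 2 * e), ?_, ⟨b ^ 2 * (4 * (e ^ 2 - e) - 3), ?_, ?_⟩,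
    ⟨b * (1 - 2 * e), ?_, ?_⟩⟩
  · exact add_mem he (mul_mem (sub_mem (pow_mem he 2) he)
      (sub_mem (one_mem B) (mul_mem (ofNat_mem B 2) he)))
  · exact mul_mem (pow_mem hb 2) (sub_mem (mul_mem (ofNat_mem B 4) (sub_mem (pow_mem he 2) he))
      (ofNat_mem B 3))
  · have : (e + (e ^ 2 - e) * (1 - 2 * e)) ^ 2 - (e + (e ^ 2 - e) * (1 - 2 * e))
        = (e ^ 2 - e) ^ 2 * (4 * (e ^ 2 - e) - 3) := by ring
    rw [this]
    conv_lhs => rw [hbe]
    rw [smul_pow, ← pow_mul, mul_comm k 2, smul_mul_assoc]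
    congr 2
    rw [hbe]
  · exact mul_mem hb (sub_mem (one_mem B) (mul_mem (ofNat_mem B 2) he))
  · rw [add_sub_cancel_left, hbe, smul_mul_assoc]

/-- Lifting an idempotent modulo `π` to an idempotent modulo `π ^ n`, inside `B`. -/
theorem exists_idem_mod_pow (B : Subalgebra A R) (π : A) {e : R} (he : e ∈ B)
    (h : ∃ b ∈ B, e ^ 2 - e = π • b) (n : ℕ) :
    ∃ e' ∈ B, (∃ b ∈ B, e' ^ 2 - e' = π ^ (n + 1) • b) ∧ ∃ b ∈ B, e' - e = π • b := by
  induction n with
  | zero => exact ⟨e, he, by simpa using h, 0, zero_mem B, by simp⟩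
  | succ n ih =>
    obtain ⟨e', he', h1, b2, hb2, h2⟩ := ih
    obtain ⟨e'', he'', ⟨b3, hb3, h3⟩, b4, hb4, h4⟩ := newton_step B π he' h1
    refine ⟨e'', he'', ⟨π ^ n • b3, B.smul_mem hb3 _, ?_⟩, ⟨π ^ n • b4 + b2,
      add_mem (B.smul_mem hb4 _) hb2, ?_⟩⟩
    · rw [h3, smul_smul, ← pow_add]
      congr 2
      omega
    · have : e'' - e = (e'' - e') + (e' - e) := by ring
      rw [this, h4, h2, smul_add, smul_smul, ← pow_succ']

/-- Two idempotents modulo `π ^ n` which are congruent modulo `π` are congruent modulo `π ^ n`. -/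
theorem sub_mem_of_idem_mod_pow (π : A) (n : ℕ) {e e' : R}
    (h : ∃ b : R, e ^ 2 - e = π ^ n • b) (h' : ∃ b : R, e' ^ 2 - e' = π ^ n • b)
    (hee : ∃ b : R, e - e' = π • b) : ∃ b : R, e - e' = π ^ n • b := by
  set J : Ideal R := Ideal.span {algebraMap A R (π ^ n)} with hJ
  have hmem : ∀ x : R, x ∈ J ↔ ∃ b : R, x = π ^ n • b := by
    intro x
    rw [hJ, Ideal.mem_span_singleton']
    constructor
    · rintro ⟨a, rfl⟩
      exact ⟨a, by rw [Algebra.smul_def, mul_comm]⟩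
    · rintro ⟨b, rfl⟩
      exact ⟨b, by rw [Algebra.smul_def, mul_comm]⟩
  rw [← hmem]
  have h1 : IsIdempotentElem (Ideal.Quotient.mk J e) := by
    rw [IsIdempotentElem, ← map_mul, Ideal.Quotient.eq, ← pow_two]
    exact (hmem _).mpr h
  have h2 : IsIdempotentElem (Ideal.Quotient.mk J e') := by
    rw [IsIdempotentElem, ← map_mul, Ideal.Quotient.eq, ← pow_two]
    exact (hmem _).mpr h'
  have h3 : IsNilpotent (Ideal.Quotient.mk J e - Ideal.Quotient.mk J e') := by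
    obtain ⟨b, hb⟩ := hee
    refine ⟨n, ?_⟩
    rw [← map_sub, ← map_pow, Ideal.Quotient.eq_zero_iff_mem, hb, smul_pow]
    exact (hmem _).mpr ⟨_, rfl⟩
  have := eq_of_isNilpotent_sub_of_isIdempotentElem h1 h2 h3
  rwa [Ideal.Quotient.eq] at this

end Newton

section Connected

variable {A R : Type*} [CommRing A] [CommRing R] [Algebra A R]

/-- **[CL] Connectedness lemma.** -/
theorem exists_global_of_idem (B₁ B₂ : Subalgebra A R) (π : A)
    {n₀ : ℕ} (htor : ∀ (n : ℕ) (b : R), (∃ b₁ ∈ B₁, ∃ b₂ ∈ B₂, π ^ n • b = b₁ + b₂) →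
      ∃ b₁ ∈ B₁, ∃ b₂ ∈ B₂, π ^ n₀ • b = b₁ + b₂)
    {e₁ e₂ : R} (he₁ : e₁ ∈ B₁) (he₂ : e₂ ∈ B₂)
    (h₁ : ∃ b ∈ B₁, e₁ ^ 2 - e₁ = π • b) (h₂ : ∃ b ∈ B₂, e₂ ^ 2 - e₂ = π • b)
    (h₁₂ : ∃ b : R, e₁ - e₂ = π • b) :
    ∃ ε : R, ε ∈ B₁ ∧ ε ∈ B₂ ∧ (∃ b ∈ B₁, ε - e₁ = π • b) ∧ ∃ b ∈ B₂, ε - e₂ = π • b := by
  obtain ⟨f₁, hf₁, ⟨c₁, hc₁, hi₁⟩, d₁, hd₁, hs₁⟩ := exists_idem_mod_pow B₁ π he₁ h₁ n₀
  obtain ⟨f₂, hf₂, ⟨c₂, hc₂, hi₂⟩, d₂, hd₂, hs₂⟩ := exists_idem_mod_pow B₂ π he₂ h₂ n₀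
  obtain ⟨b₀, hb₀⟩ := h₁₂
  obtain ⟨b, hb⟩ := sub_mem_of_idem_mod_pow π (n₀ + 1) (e := f₁) (e' := f₂) ⟨c₁, hi₁⟩ ⟨c₂, hi₂⟩
    ⟨d₁ + b₀ - d₂, by
      have : f₁ - f₂ = (f₁ - e₁) + (e₁ - e₂) - (f₂ - e₂) := by ring
      rw [this, hs₁, hb₀, hs₂, smul_sub, smul_add]⟩
  obtain ⟨b₁, hb₁, b₂, hb₂, hbb⟩ := htor (n₀ + 1) b ⟨f₁, hf₁, -f₂, neg_mem hf₂, by
    rw [← hb]; ring⟩
  -- `f₁ - f₂ = π • (b₁ + b₂)`
  have key : f₁ - f₂ = π • (b₁ + b₂) := by
    rw [hb, pow_succ', mul_smul, hbb]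
  refine ⟨f₁ - π • b₁, sub_mem hf₁ (B₁.smul_mem hb₁ _), ?_, ⟨d₁ - b₁, sub_mem hd₁ hb₁, ?_⟩,
    ⟨d₂ + b₂, add_mem hd₂ hb₂, ?_⟩⟩
  · have : f₁ - π • b₁ = f₂ + π • b₂ := by
      rw [smul_add] at key
      linear_combination key
    rw [this]
    exact add_mem hf₂ (B₂.smul_mem hb₂ _)
  · rw [smul_sub, ← hs₁]; ring
  · rw [smul_add, ← hs₂]
    rw [smul_add] at key
    linear_combination key

end Connected

section Torsion

variable {A M : Type*} [CommRing A] [IsDomain A] [AddCommGroup M] [Module A M]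

/-- **[TORS]** The torsion of a finitely generated module over a domain is killed by a single
nonzero element. -/
theorem exists_ne_zero_smul_torsion_eq_zero [Module.Finite A M] :
    ∃ c : A, c ≠ 0 ∧ ∀ x : M, (∃ a : A, a ≠ 0 ∧ a • x = 0) → c • x = 0 := by
  classical
  obtain ⟨n, v, hv⟩ := Module.Finite.exists_fin (R := A) (M := M)
  obtain ⟨s, hs, hmax⟩ := exists_maximal_linearIndepOn A v
  choose! a ha0 ha using hmax
  set c : A := ∏ i : Fin n, if i ∈ s then 1 else a i with hc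
  have hc0 : c ≠ 0 := by
    rw [hc, Finset.prod_ne_zero_iff]
    intro i _
    split_ifs with hi
    · exact one_ne_zero
    · exact ha0 i hi
  have hcv : ∀ i, c • v i ∈ Submodule.span A (v '' s) := by
    intro i
    by_cases hi : i ∈ s
    · exact Submodule.smul_mem _ _ (Submodule.subset_span ⟨i, hi, rfl⟩)
    · have hdvd : a i ∣ c := by
        have := Finset.dvd_prod_of_mem (fun i : Fin n => if i ∈ s then 1 else a i)
          (Finset.mem_univ i)
        simpa [hi] using this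
      obtain ⟨d, hd⟩ := hdvd
      rw [hd, mul_comm, mul_smul]
      exact Submodule.smul_mem _ _ (ha i hi)
  have hcM : ∀ x : M, c • x ∈ Submodule.span A (v '' s) := by
    intro x
    have hx : x ∈ Submodule.span A (Set.range v) := hv ▸ Submodule.mem_top
    induction hx using Submodule.span_induction with
    | mem y hy => obtain ⟨i, rfl⟩ := hy; exact hcv i
    | zero => simp
    | add y z _ _ hy hz => rw [smul_add]; exact add_mem hy hz
    | smul r y _ hy => rw [smul_comm]; exact Submodule.smul_mem _ _ hy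
  refine ⟨c, hc0, ?_⟩
  rintro x ⟨b, hb0, hbx⟩
  -- `c • x` lies in a torsion free submodule and is torsion
  have h1 := hcM x
  have h2 : b • (c • x) = 0 := by rw [smul_comm, hbx, smul_zero]
  have hli : LinearIndependent A (fun i : s => v i) := hs
  have hrange : v '' s = Set.range (fun i : s => v i) := by
    ext y; simp
  rw [hrange] at h1
  obtain ⟨l, hl⟩ := (Finsupp.mem_span_range_iff_exists_finsupp).mp h1
  have h3 : (b • l).sum (fun i r => r • v i) = 0 := by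
    rw [Finsupp.sum_smul_index' (by simp)]
    have : (l.sum fun i r => (b • r) • v i) = b • l.sum fun i r => r • v i := by
      rw [Finsupp.smul_sum]
      exact Finsupp.sum_congr fun i _ => by rw [smul_eq_mul, mul_smul]
    rw [this, hl, h2]
  have h4 : b • l = 0 := by
    have := (linearIndependent_iff.mp hli) (b • l) (by
      rw [Finsupp.linearCombination_apply]; exact h3)
    exact this
  have h5 : l = 0 := by
    rcases smul_eq_zero.mp h4 with h | h
    · exact absurd h hb0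
    · exact h
  rw [← hl, h5, Finsupp.sum_zero_index]

/-- **[TOR]** bounded `π`-power torsion of `R / (B₁ + B₂)` when this quotient is generated by a
finitely generated submodule `Λ`, and every nonzero element of `A` divides a power of `π`
(rank one valuation rings). -/
theorem bounded_torsion_of_fg {R : Type*} [AddCommGroup R] [Module A R] (B Λ : Submodule A R)
    (hΛ : Λ.FG) (htop : Λ ⊔ B = ⊤) {π : A} (hπ : π ≠ 0)
    (harch : ∀ c : A, c ≠ 0 → ∃ n : ℕ, c ∣ π ^ n) :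
    ∃ n₀ : ℕ, ∀ (n : ℕ) (b : R), π ^ n • b ∈ B → π ^ n₀ • b ∈ B := by
  haveI : Module.Finite A (R ⧸ B) := by
    have hsurj : Function.Surjective (B.mkQ.comp Λ.subtype) := by
      intro y
      obtain ⟨x, rfl⟩ := B.mkQ_surjective y
      have hx : x ∈ Λ ⊔ B := htop ▸ Submodule.mem_top
      obtain ⟨l, hl, b, hb, rfl⟩ := Submodule.mem_sup.mp hx
      refine ⟨⟨l, hl⟩, ?_⟩
      simp only [LinearMap.comp_apply, Submodule.subtype_apply, map_add]
      have : B.mkQ b = 0 := (Submodule.Quotient.mk_eq_zero B).mpr hb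
      rw [this, add_zero]
    haveI : Module.Finite A Λ := Module.Finite.iff_fg.mpr hΛ
    exact Module.Finite.of_surjective _ hsurj
  obtain ⟨c, hc0, hc⟩ := exists_ne_zero_smul_torsion_eq_zero (A := A) (M := R ⧸ B)
  obtain ⟨n₀, d, hd⟩ := harch c hc0
  refine ⟨n₀, fun n b hb => ?_⟩
  have h1 : c • B.mkQ b = 0 := hc _ ⟨π ^ n, pow_ne_zero n hπ, by
    rw [← map_smul]; exact (Submodule.Quotient.mk_eq_zero B).mpr hb⟩
  rw [← Submodule.Quotient.mk_eq_zero B]
  change B.mkQ (π ^ n₀ • b) = 0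
  rw [map_smul, hd, mul_comm, mul_smul, h1, smul_zero]

end Torsion

section Nakayama

variable {A R : Type*} [CommRing A] [IsLocalRing A] [AddCommGroup R] [Module A R]

/-- **[NAK]** Nakayama in the form used for `H¹`: a finitely generated `Λ` which is contained in
`N + 𝔪 Λ` is contained in `N`. -/
theorem le_of_le_sup_smul {Λ N : Submodule A R} (hΛ : Λ.FG)
    (h : Λ ≤ N ⊔ IsLocalRing.maximalIdeal A • Λ) : Λ ≤ N :=
  Submodule.le_of_le_smul_of_le_jacobson_bot hΛ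
    (IsLocalRing.maximalIdeal_le_jacobson _) h

end Nakayama

end Fermat.Agent.SS
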