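import Mathlib

/-!
# SS, leaf [OLD], algebra part

A commutative ring `R`, finite free over `ℤ`, acting on a finite dimensional complex vector space
`V` and preserving a lattice: every ring homomorphism `χ : R → ℂ` occurs as the character of an
eigenvector.
-/

set_option autoImplicit false

namespace Fermat.Agent.SS

open TensorProduct

/-- Every character of a finite dimensional commutative algebra occurs in a faithful module. -/
theorem exists_eigenvector_of_faithful {A V : Type*} [CommRing A] [Algebra ℂ A]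
    [FiniteDimensional ℂ A] [AddCommGroup V] [Module A V] [Module.Finite A V]
    (hfaith : ∀ a : A, (∀ v : V, a • v = 0) → a = 0) (χ : A →ₐ[ℂ] ℂ) :
    ∃ w : V, w ≠ 0 ∧ ∀ a : A, a • w = algebraMap ℂ A (χ a) • w := by
  have : IsArtinianRing A := IsArtinianRing.of_finite ℂ A
  have : IsNoetherianRing A := IsNoetherianRing.of_finite ℂ A
  set 𝔪 : Ideal A := RingHom.ker (χ : A →+* ℂ) with h𝔪
  have hsurj : Function.Surjective (χ : A →+* ℂ) := fun c => ⟨algebraMap ℂ A c, by simp⟩
  have hmax : 𝔪.IsMaximal := RingHom.ker_isMaximal_of_surjective _ hsurj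
  have hann : Module.annihilator A V = ⊥ := by
    rw [eq_bot_iff]
    intro a ha
    exact hfaith a (Module.mem_annihilator.1 ha)
  have hmin : 𝔪 ∈ (Module.annihilator A V).minimalPrimes := by
    rw [hann]
    refine ⟨⟨hmax.isPrime, bot_le⟩, ?_⟩
    rintro q ⟨hq, -⟩ hq𝔪
    have hqmax : q.IsMaximal := IsArtinianRing.isMaximal_of_isPrime q
    exact (hqmax.eq_of_le hmax.ne_top hq𝔪).ge
  have hass := Module.associatedPrimes.minimalPrimes_annihilator_subset_associatedPrimes A V hmin
  obtain ⟨-, w, hw⟩ := isAssociatedPrime_iff.mp hass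
  have hmem : ∀ a : A, a ∈ 𝔪 ↔ a • w = 0 := by
    intro a
    rw [hw, Submodule.mem_colon_singleton, Submodule.mem_bot]
  refine ⟨w, ?_, fun a => ?_⟩
  · rintro rfl
    apply hmax.ne_top
    rw [Ideal.eq_top_iff_one, hmem, smul_zero]
  · have h1 : a - algebraMap ℂ A (χ a) ∈ 𝔪 := by
      rw [h𝔪, RingHom.mem_ker]
      simp
    have h2 := (hmem _).1 h1
    rwa [sub_smul, sub_eq_zero] at h2

/-- clearing denominators -/
theorem exists_int_mul {ι : Type*} [Fintype ι] (r : ι → ℚ) :
    ∃ (D : ℤ) (n : ι → ℤ), D ≠ 0 ∧ ∀ k, (n k : ℚ) = D * r k := by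
  classical
  refine ⟨∏ k, ((r k).den : ℤ), fun k => (r k).num * ∏ j ∈ Finset.univ.erase k, ((r j).den : ℤ),
    ?_, fun k => ?_⟩
  · exact Finset.prod_ne_zero_iff.2 fun k _ => by exact_mod_cast (r k).den_ne_zero
  · rw [← Finset.mul_prod_erase Finset.univ _ (Finset.mem_univ k)]
    push_cast
    have := Rat.mul_den_eq_num (r k)
    rw [← this]
    ring

/-- `ℤ`-independent operators preserving a lattice are `ℂ`-independent. -/
theorem linearIndependent_of_lattice {V : Type*} [AddCommGroup V] [Module ℂ V] {R : Type*}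
    [CommRing R] (φ : R →+* Module.End ℂ V) (hφ : Function.Injective φ) {I J : Type*}
    (c : I → V →ₗ[ℂ] ℂ) (b : J → V) (hc : ∀ v, (∀ i, c i v = 0) → v = 0)
    (hb : Submodule.span ℂ (Set.range b) = ⊤)
    (hint : ∀ t i j, ∃ m : ℤ, c i (φ t (b j)) = m)
    {ι : Type*} [Fintype ι] (t : ι → R) (ht : LinearIndependent ℤ t) :
    LinearIndependent ℂ (fun k => φ (t k)) := by
  classical
  rw [Fintype.linearIndependent_iff]
  intro z hz k0
  by_contra hk0
  obtain ⟨π, hπ⟩ : ∃ π : ℂ →ₗ[ℚ] ℚ, π (z k0) ≠ 0 := by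
    by_contra hcon
    push Not at hcon
    exact hk0 ((Module.forall_dual_apply_eq_zero_iff ℚ (z k0)).1 hcon)
  obtain ⟨D, n, hD, hn⟩ := exists_int_mul (fun k => π (z k))
  choose m hm using hint
  -- the rational relation
  have hrel : ∀ i j, ∑ k, π (z k) * (m (t k) i j : ℚ) = 0 := by
    intro i j
    have h1 : ∑ k, z k * (m (t k) i j : ℂ) = 0 := by
      have := congrArg (fun T : Module.End ℂ V => c i (T (b j))) hz
      simp only [LinearMap.sum_apply, LinearMap.smul_apply, map_sum, map_smul, smul_eq_mul,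
        LinearMap.zero_apply, map_zero, hm] at this
      exact this
    have h2 := congrArg π h1
    rw [map_sum, map_zero] at h2
    rw [← h2]
    refine Finset.sum_congr rfl fun k _ => ?_
    have : z k * (m (t k) i j : ℂ) = (m (t k) i j : ℚ) • z k := by
      rw [Rat.smul_def]
      push_cast
      ring
    rw [this, map_smul, smul_eq_mul, mul_comm]
  have hzero : φ (∑ k, n k • t k) = 0 := by
    apply LinearMap.ext_on hb
    rintro _ ⟨j, rfl⟩
    rw [LinearMap.zero_apply]
    apply hc
    intro i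
    rw [map_sum, LinearMap.sum_apply, map_sum]
    have h3 : ∀ k, c i (φ (n k • t k) (b j)) = ((n k * m (t k) i j : ℤ) : ℂ) := by
      intro k
      rw [map_zsmul, LinearMap.smul_apply, map_zsmul, hm]
      simp
    simp only [h3]
    have h4 : ∑ k, (n k * m (t k) i j : ℤ) = 0 := by
      have h5 : ((∑ k, (n k * m (t k) i j : ℤ) : ℤ) : ℚ) = 0 := by
        push_cast
        simp only [hn, mul_assoc]
        rw [← Finset.mul_sum, hrel, mul_zero]
      exact_mod_cast h5
    rw [← Int.cast_sum, h4, Int.cast_zero]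
  have h6 : ∑ k, n k • t k = 0 := hφ (by rw [hzero, map_zero])
  have h7 := Fintype.linearIndependent_iff.1 ht n h6 k0
  have h8 := hn k0
  rw [h7, Int.cast_zero] at h8
  rcases mul_eq_zero.1 h8.symm with h | h
  · exact hD (by exact_mod_cast h)
  · exact hπ h

/-- **Every character occurs.** -/
theorem exists_eigenvector_of_ringHom {V : Type*} [AddCommGroup V] [Module ℂ V]
    [FiniteDimensional ℂ V] {R : Type*} [CommRing R] [Module.Finite ℤ R] [Module.Free ℤ R]
    (φ : R →+* Module.End ℂ V) (hφ : Function.Injective φ) {I J : Type*}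
    (c : I → V →ₗ[ℂ] ℂ) (b : J → V) (hc : ∀ v, (∀ i, c i v = 0) → v = 0)
    (hb : Submodule.span ℂ (Set.range b) = ⊤)
    (hint : ∀ t i j, ∃ m : ℤ, c i (φ t (b j)) = m) (χ : R →+* ℂ) :
    ∃ w : V, w ≠ 0 ∧ ∀ t, φ t w = χ t • w := by
  classical
  let bR := Module.Free.chooseBasis ℤ R
  have hind := linearIndependent_of_lattice φ hφ c b hc hb hint bR bR.linearIndependent
  let A := ℂ ⊗[ℤ] R
  let Φ : A →ₐ[ℂ] Module.End ℂ V :=
    Algebra.TensorProduct.lift (Algebra.ofId ℂ _) φ.toIntAlgHom (fun c t => by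
      exact Algebra.commutes c _)
  have hΦ : ∀ t : R, Φ ((1 : ℂ) ⊗ₜ[ℤ] t) = φ t := by
    intro t
    exact (Algebra.TensorProduct.lift_tmul (Algebra.ofId ℂ (Module.End ℂ V)) φ.toIntAlgHom
      (fun c t => Algebra.commutes c _) (1 : ℂ) t).trans (by rw [map_one, one_mul]; rfl)
  let X : A →ₐ[ℂ] ℂ :=
    Algebra.TensorProduct.lift (Algebra.ofId ℂ ℂ) χ.toIntAlgHom (fun c t => Commute.all _ _)
  have hX : ∀ t : R, X ((1 : ℂ) ⊗ₜ[ℤ] t) = χ t := by
    intro t
    exact (Algebra.TensorProduct.lift_tmul (Algebra.ofId ℂ ℂ) χ.toIntAlgHom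
      (fun c t => Commute.all _ _) (1 : ℂ) t).trans (by rw [map_one, one_mul]; rfl)
  let bA : Module.Basis _ ℂ A := Algebra.TensorProduct.basis ℂ bR
  have hΦinj : Function.Injective Φ := by
    rw [injective_iff_map_eq_zero]
    intro a ha
    have h1 : a = ∑ k, bA.repr a k • bA k := (bA.sum_repr a).symm
    rw [h1, map_sum] at ha
    have h2 : ∀ k, Φ (bA.repr a k • bA k) = bA.repr a k • φ (bR k) := by
      intro k
      rw [map_smul, Algebra.TensorProduct.basis_apply, hΦ]
    simp only [h2] at ha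
    have h3 := Fintype.linearIndependent_iff.1 hind _ ha
    rw [h1]
    exact Finset.sum_eq_zero fun k _ => by rw [h3 k, zero_smul]
  let _ : Module A V := Module.compHom V Φ.toRingHom
  have hsmul : ∀ (a : A) (v : V), a • v = Φ a v := fun _ _ => rfl
  have : IsScalarTower ℂ A V := ⟨fun c a v => by
    rw [hsmul, hsmul, map_smul, LinearMap.smul_apply]⟩
  have : Module.Finite A V := Module.Finite.of_restrictScalars_finite ℂ A V
  obtain ⟨w, hw0, hw⟩ := exists_eigenvector_of_faithful (A := A) (V := V)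
    (fun a ha => hΦinj (by rw [map_zero]; exact LinearMap.ext ha)) X
  refine ⟨w, hw0, fun t => ?_⟩
  have h1 := hw ((1 : ℂ) ⊗ₜ[ℤ] t)
  rw [hsmul, hsmul, hΦ, hX, AlgHom.commutes, Module.algebraMap_end_apply] at h1
  exact h1

end Fermat.Agent.SS
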