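import Mathlib

/-!
# SS, leaf [RES]: the resultant identity

If `s² - P s + q = 0` and `(s² - 1)(s² - q²) t = 0` then `q² ((q+1)² - P²)² t = 0`.
-/

set_option autoImplicit false

namespace Fermat.Agent.SS

theorem res_identity {R : Type*} [CommRing R] (s P q t : R) (h1 : s ^ 2 - P * s + q = 0)
    (h2 : (s ^ 2 - 1) * (s ^ 2 - q ^ 2) * t = 0) :
    q ^ 2 * ((q + 1) ^ 2 - P ^ 2) ^ 2 * t = 0 := by
  have hq : s * (P - s) = q := by linear_combination -h1
  have e1 : (s ^ 2 - 1) * ((P - s) ^ 2 - 1) = (q + 1) ^ 2 - P ^ 2 := by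
    linear_combination (s * (P - s) + q + 2) * hq
  have e2 : (s ^ 2 - q ^ 2) * ((P - s) ^ 2 - q ^ 2) = q ^ 2 * ((q + 1) ^ 2 - P ^ 2) := by
    linear_combination (s * (P - s) + q + 2 * q ^ 2) * hq
  linear_combination ((P - s) ^ 2 - 1) * ((P - s) ^ 2 - q ^ 2) * h2
    - ((s ^ 2 - q ^ 2) * ((P - s) ^ 2 - q ^ 2) * t) * e1 - (((q + 1) ^ 2 - P ^ 2) * t) * e2

open scoped IsMulCommutative in
/-- version for pairwise commuting elements of a (non commutative) ring, e.g. endomorphisms of an
abelian group -/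
theorem res_identity_of_commute {E : Type*} [Ring E] (s P t : E) (q : ℤ) (hsP : Commute s P)
    (hst : Commute s t) (hPt : Commute P t) (h1 : s ^ 2 - P * s + (q : E) = 0)
    (h2 : (s ^ 2 - 1) * (s ^ 2 - (q : E) ^ 2) * t = 0) :
    (q : E) ^ 2 * (((q : E) + 1) ^ 2 - P ^ 2) ^ 2 * t = 0 := by
  let X : Set E := {s, P, t}
  have hcomm : ∀ a ∈ X, ∀ b ∈ X, a * b = b * a := by
    intro a ha b hb
    simp only [X, Set.mem_insert_iff, Set.mem_singleton_iff] at ha hb
    rcases ha with rfl | rfl | rfl <;> rcases hb with rfl | rfl | rfl <;>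
      first
        | rfl
        | exact hsP
        | exact hsP.symm
        | exact hst
        | exact hst.symm
        | exact hPt
        | exact hPt.symm
  have : IsMulCommutative (Algebra.adjoin ℤ X) := Algebra.isMulCommutative_adjoin ℤ hcomm
  let s' : Algebra.adjoin ℤ X := ⟨s, Algebra.subset_adjoin (by simp [X])⟩
  let P' : Algebra.adjoin ℤ X := ⟨P, Algebra.subset_adjoin (by simp [X])⟩
  let t' : Algebra.adjoin ℤ X := ⟨t, Algebra.subset_adjoin (by simp [X])⟩
  have key := res_identity s' P' (q : Algebra.adjoin ℤ X) t' (Subtype.ext (by simpa using h1))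
    (Subtype.ext (by simpa using h2))
  have := congrArg Subtype.val key
  simpa using this

end Fermat.Agent.SS
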